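import Mathlib.RepresentationTheory.Basic
import Fermat.Agent.Raising.SquareRemoval.Weil.Herm
import Fermat.Agent.ResidualThree.WeightTwo.AtkinLehner

/-!
# Families of weight-one functions with values governed by a representation modulo `D`

A family is a linear map `h` from functions on a finite set to weight-one functions with
`h φ ∣ γ = χ(d) h(W γ⁻¹ φ)` on `Γ₀(M)`, `W` trivial on `Γ(D)`. At primes `ℓ ≡ 1 (mod D)` the
operator `T_ℓ` computed with representatives congruent to `1` modulo `D` acts on families.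
The families of tame level are invariant under the lower triangular action `lowEnd`.
-/

noncomputable section

open CongruenceSubgroup UpperHalfPlane
open scoped ModularForm MatrixGroups Manifold

namespace Fermat.Agent.ResidualThree.SquarefreeLevel

open Fermat.Agent.Raising.SquareRemoval (EisQ Vd lowAct)

/-- Lower triangular matrices of determinant one over `ℤ[ω] / D`. -/
abbrev LowIdx (D : ℕ) : Type :=
  {u : EisQ (ZMod D) × EisQ (ZMod D) × EisQ (ZMod D) // u.1 * u.2.2 = 1}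

/-- Their action on functions. -/
def lowEnd (D : ℕ) (u : LowIdx D) : Module.End ℂ (Vd (ZMod D) → ℂ) :=
  LinearMap.funLeft ℂ ℂ (lowAct u.1.1 u.1.2.1 u.1.2.2)

/-- `diag (D, 1)`. -/
def dMat (D : ℕ) : Matrix (Fin 2) (Fin 2) ℤ := !![(D : ℤ), 0; 0, 1]

theorem det_dMat (D : ℕ) : (dMat D).det = D := by simp [dMat, Matrix.det_fin_two_of]

/-- The translation by an integer. -/
def shear (t : ℤ) : Matrix (Fin 2) (Fin 2) ℤ := !![1, t; 0, 1]

theorem det_shear (t : ℤ) : (shear t).det = 1 := by simp [shear, Matrix.det_fin_two_of]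

theorem shear_mul_shear (s t : ℤ) : shear s * shear t = shear (t + s) := by
  simp [shear]

theorem shear_zero : shear 0 = 1 := by simp [shear, Matrix.one_fin_two]

/-- Representatives of determinant `ℓ`, congruent to `diag (1, ℓ)` or `diag (ℓ, 1)` modulo `D`. -/
def hRepD (ℓ D : ℕ) : Option (ZMod ℓ) → Matrix (Fin 2) (Fin 2) ℤ
  | some u => !![1, (D : ℤ) * (u.val : ℤ); 0, (ℓ : ℤ)]
  | none => !![(ℓ : ℤ), 0; 0, 1]

theorem det_hRepD (ℓ D : ℕ) (i : Option (ZMod ℓ)) : (hRepD ℓ D i).det = ℓ := by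
  cases i <;> simp [hRepD, Matrix.det_fin_two_of]

theorem hRepD_mul_dMat (ℓ D : ℕ) (i : Option (ZMod ℓ)) :
    hRepD ℓ D i * dMat D = dMat D * hRep ℓ i := by
  cases i <;> simp [hRepD, hRep, dMat, mul_comm]

/-- The line of a representative. -/
def reIndex (ℓ D : ℕ) : Option (ZMod ℓ) → Option (ZMod ℓ) := Option.map fun u => (D : ZMod ℓ) * u

/-- The translation carrying `hRepD` to `hRep`. -/
def reShift (ℓ D : ℕ) : Option (ZMod ℓ) → ℤ
  | some u => ((((D : ZMod ℓ) * u).val : ℤ) - (D : ℤ) * (u.val : ℤ)) / ℓ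
  | none => 0

theorem hRep_reIndex {ℓ : ℕ} [NeZero ℓ] (D : ℕ) (i : Option (ZMod ℓ)) :
    hRep ℓ (reIndex ℓ D i) = shear (reShift ℓ D i) * hRepD ℓ D i := by
  rcases i with _ | u
  · simp [reIndex, reShift, hRep, hRepD, shear]
  · have hd : (ℓ : ℤ) ∣ (((D : ZMod ℓ) * u).val : ℤ) - (D : ℤ) * (u.val : ℤ) := by
      rw [← ZMod.intCast_zmod_eq_zero_iff_dvd]
      simp
    have h := Int.ediv_mul_cancel hd
    simp [reIndex, reShift, hRep, hRepD, shear, -ZMod.natCast_val]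
    linear_combination -h

theorem reIndex_bijective {ℓ : ℕ} [Fact ℓ.Prime] {D : ℕ} (hD : (D : ZMod ℓ) ≠ 0) :
    Function.Bijective (reIndex ℓ D) :=
  Finite.injective_iff_bijective.1 (Option.map_injective (mul_right_injective₀ hD))

/-- `T_ℓ` with these representatives. -/
def heckeD (ℓ D : ℕ) [NeZero ℓ] (f : ℍ → ℂ) : ℍ → ℂ :=
  ∑ i : Option (ZMod ℓ), repWeight ℓ i • (f ∣[(1 : ℤ)] intGL (hRepD ℓ D i))

theorem heckeD_slash_dMat {ℓ : ℕ} [Fact ℓ.Prime] {D : ℕ} (hD : D ≠ 0) (f : ℍ → ℂ) :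
    heckeD ℓ D f ∣[(1 : ℤ)] intGL (dMat D) = heckeOne ℓ (f ∣[(1 : ℤ)] intGL (dMat D)) := by
  have hℓ : (ℓ : ℤ) ≠ 0 := Int.natCast_ne_zero.2 (Fact.out : ℓ.Prime).ne_zero
  have hd : 0 < (dMat D).det := by rw [det_dMat]; exact_mod_cast Nat.pos_of_ne_zero hD
  rw [heckeOne_eq_sum, heckeD, SlashAction.sum_slash]
  refine Finset.sum_congr rfl fun i _ => ?_
  rw [smul_slash_intGL hd, ← SlashAction.slash_mul,
    ← intGL_mul (by rw [det_hRepD]; exact hℓ) hd.ne',
    hRepD_mul_dMat, intGL_mul hd.ne' (by rw [det_hRep]; exact hℓ), SlashAction.slash_mul]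

theorem heckeD_add {ℓ : ℕ} [NeZero ℓ] (D : ℕ) (f g : ℍ → ℂ) :
    heckeD ℓ D (f + g) = heckeD ℓ D f + heckeD ℓ D g := by
  simp only [heckeD, SlashAction.add_slash, smul_add, Finset.sum_add_distrib]

theorem heckeD_smul {ℓ : ℕ} [NeZero ℓ] (D : ℕ) (c : ℂ) (f : ℍ → ℂ) :
    heckeD ℓ D (c • f) = c • heckeD ℓ D f := by
  simp only [heckeD, Finset.smul_sum]
  refine Finset.sum_congr rfl fun i _ => ?_
  rw [smul_slash_intGL (by rw [det_hRepD]; exact_mod_cast Nat.pos_of_ne_zero (NeZero.ne ℓ)),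
    smul_comm]

/-- Matrices with the same reduction modulo `D`. -/
def CongMod (D : ℕ) (A B : Matrix (Fin 2) (Fin 2) ℤ) : Prop :=
  A.map (fun x : ℤ => (x : ZMod D)) = B.map fun x : ℤ => (x : ZMod D)

theorem CongMod.apply {D : ℕ} {A B : Matrix (Fin 2) (Fin 2) ℤ} (h : CongMod D A B) (i j : Fin 2) :
    ((A i j : ℤ) : ZMod D) = (B i j : ℤ) := congrFun (congrFun h i) j

theorem hRepD_congMod {ℓ D : ℕ} (hℓD : (ℓ : ZMod D) = 1) (i : Option (ZMod ℓ)) :
    CongMod D (hRepD ℓ D i) 1 := by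
  refine Matrix.ext fun a b => ?_
  rcases i with _ | u <;> fin_cases a <;> fin_cases b <;> simp [hRepD, hℓD]

theorem congMod_of_hRepD_mul {ℓ D : ℕ} (hℓD : (ℓ : ZMod D) = 1) {i k : Option (ZMod ℓ)}
    {A A' : Matrix (Fin 2) (Fin 2) ℤ} (h : hRepD ℓ D i * A = A' * hRepD ℓ D k) :
    CongMod D A' A := by
  have h' := congrArg (Int.castRingHom (ZMod D)).mapMatrix h
  rw [map_mul, map_mul] at h'
  simp only [RingHom.mapMatrix_apply, Int.coe_castRingHom] at h'
  rw [show (hRepD ℓ D i).map (fun x : ℤ => (x : ZMod D)) = _ from hRepD_congMod hℓD i,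
    show (hRepD ℓ D k).map (fun x : ℤ => (x : ZMod D)) = _ from hRepD_congMod hℓD k,
    Matrix.map_one _ Int.cast_zero Int.cast_one, one_mul, mul_one] at h'
  exact h'.symm

/-- **Slashing by an element of `Γ₀(N)`.** -/
theorem heckeD_slash_SL {N ℓ D : ℕ} (hℓ : ℓ.Prime) [NeZero ℓ] (hN : ¬ ℓ ∣ N) (h3N : 3 ∣ N)
    (hℓD : (ℓ : ZMod D) = 1) (hDℓ : (D : ZMod ℓ) ≠ 0) {γ : SL(2, ℤ)} (hγ : γ ∈ Gamma0 N)
    (f Φ : ℍ → ℂ)
    (hf : ∀ γ' : SL(2, ℤ), γ' ∈ Gamma0 N →
      CongMod D (γ' : Matrix (Fin 2) (Fin 2) ℤ) (γ : Matrix (Fin 2) (Fin 2) ℤ) →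
      f ∣[(1 : ℤ)] γ' = chiC (γ' 1 1) • Φ) :
    heckeD ℓ D f ∣[(1 : ℤ)] γ = chiC (γ 1 1) • heckeD ℓ D Φ := by
  have : Fact ℓ.Prime := ⟨hℓ⟩
  have hℓ3 : ℓ ≠ 3 := fun h => hN (h ▸ h3N)
  have hℓ0 : (ℓ : ℤ) ≠ 0 := Int.natCast_ne_zero.2 hℓ.ne_zero
  have hℓℓ := chiC_natCast_ne hℓ hℓ3
  set A : Matrix (Fin 2) (Fin 2) ℤ := ↑γ with hA
  have hAd : A.det = 1 := γ.2
  have hdet : ((A.det : ℤ) : ZMod ℓ) ≠ 0 := by rw [hAd, Int.cast_one]; exact one_ne_zero
  have hrep : ∀ i : Option (ZMod ℓ), (hRepD ℓ D i).det ≠ 0 := fun i => by rw [det_hRepD]; exact hℓ0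
  let e := Equiv.ofBijective _ (reIndex_bijective hDℓ)
  rw [ModularForm.SL_slash, ← intGL_coe_SL, ← hA, heckeD, heckeD, SlashAction.sum_slash,
    Finset.smul_sum]
  refine Fintype.sum_bijective (fun i => e.symm (linePerm A (e i)))
    (e.symm.bijective.comp ((Finite.injective_iff_bijective.1 (linePerm_injective hdet)).comp
      e.bijective)) _ _ fun i => ?_
  obtain ⟨M₀, hM₀, hd₀⟩ := exists_hRep_mul (M := A) (e i)
  set k := e.symm (linePerm A (e i)) with hk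
  have hek : reIndex ℓ D k = linePerm A (e i) := e.apply_symm_apply _
  rw [← hek, show e i = reIndex ℓ D i from rfl, hRep_reIndex, hRep_reIndex] at hM₀
  set M' := shear (-reShift ℓ D i) * M₀ * shear (reShift ℓ D k) with hM'
  have hmul : hRepD ℓ D i * A = M' * hRepD ℓ D k := by
    calc hRepD ℓ D i * A = shear (-reShift ℓ D i) * (shear (reShift ℓ D i) * hRepD ℓ D i * A) := by
          rw [← mul_assoc, ← mul_assoc, shear_mul_shear, add_neg_cancel, shear_zero, one_mul]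
      _ = _ := by rw [hM₀, hM']; simp only [mul_assoc]
  have hM'd : M'.det = 1 := by
    rw [hM', Matrix.det_mul, Matrix.det_mul, det_shear, det_shear, hd₀, hAd, one_mul, mul_one]
  have hγN : (N : ℤ) ∣ A 1 0 := by
    rw [← ZMod.intCast_zmod_eq_zero_iff_dvd]
    exact Gamma0_mem.1 hγ
  have h10' : (3 : ℤ) ∣ A 1 0 := dvd_sub_of_dvd_natCast h3N hγN
  have ent : ∀ a b : Fin 2, (hRepD ℓ D i) a 0 * A 0 b + (hRepD ℓ D i) a 1 * A 1 b =
      M' a 0 * (hRepD ℓ D k) 0 b + M' a 1 * (hRepD ℓ D k) 1 b := fun a b => by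
    have := congrFun (congrFun hmul a) b
    simpa [Matrix.mul_apply, Fin.sum_univ_two] using this
  have e10 := ent 1 0
  have e11 := ent 1 1
  have hM'N : (N : ℤ) ∣ M' 1 0 := by
    rcases i with _ | i <;> rcases k with _ | k <;> simp [hRepD, -ZMod.natCast_val] at e10
    · refine natCast_dvd_of_coprime_mul hℓ hN ?_
      rw [mul_comm, ← e10]; exact hγN
    · exact e10 ▸ hγN
    · refine natCast_dvd_of_coprime_mul hℓ hN ?_
      rw [mul_comm, ← e10]; exact dvd_mul_of_dvd_right hγN _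
    · rw [← e10]; exact dvd_mul_of_dvd_right hγN _
  have hw : repWeight ℓ i * chiC (M' 1 1) = chiC (A 1 1) * repWeight ℓ k := by
    rcases i with _ | i <;> rcases k with _ | k <;> simp [hRepD, -ZMod.natCast_val] at e10 e11 <;>
      simp only [repWeight, one_mul, mul_one]
    · rw [← e11, mul_comm]
    · rw [e11, chiC_congr (a := M' 1 0 * ((D : ℤ) * (k.val : ℤ)) + M' 1 1 * ℓ) (b := M' 1 1 * ℓ)
        (by rw [add_sub_cancel_right, ← e10]; exact dvd_mul_of_dvd_left h10' _), chiC_mul,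
        mul_comm (chiC (M' 1 1))]
    · rw [← e11, chiC_mul, mul_comm]
    · have : chiC (ℓ * A 1 1) = chiC (M' 1 1 * ℓ) := by
        rw [e11]
        refine chiC_congr ?_
        rw [add_sub_cancel_right, ← e10]
        exact dvd_mul_of_dvd_left (dvd_mul_of_dvd_right h10' _) _
      rw [chiC_mul, chiC_mul] at this
      have h2 : chiC (ℓ : ℤ) ≠ 0 := fun e => by simp [e] at hℓℓ
      exact mul_left_cancel₀ h2 (by rw [this]; ring)
  have hk0 : 0 < (hRepD ℓ D k).det := by rw [det_hRepD]; exact_mod_cast hℓ.pos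
  obtain ⟨g, hg⟩ : ∃ g : SL(2, ℤ), (g : Matrix (Fin 2) (Fin 2) ℤ) = M' := ⟨⟨M', hM'd⟩, rfl⟩
  have hf' := hf g (by rw [Gamma0_mem, ZMod.intCast_zmod_eq_zero_iff_dvd, hg]; exact hM'N)
    (by rw [hg]; exact congMod_of_hRepD_mul hℓD hmul)
  rw [ModularForm.SL_slash, ← intGL_coe_SL, hg] at hf'
  rw [smul_slash_intGL (hAd ▸ one_pos), ← SlashAction.slash_mul,
    ← intGL_mul (hrep i) (by rw [hAd]; exact one_ne_zero), hmul,
    intGL_mul (by rw [hM'd]; exact one_ne_zero) (hrep _), SlashAction.slash_mul,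
    hf', smul_slash_intGL hk0, smul_smul, smul_smul]
  exact congrArg (· • _) hw

variable {V : Type} (M D : ℕ) (W : Representation ℂ SL(2, ℤ) (V → ℂ)) {ι : Type}
  (act : ι → Module.End ℂ (V → ℂ)) (χ : ι → ℂ)

/-- A family of weight-one cusp functions. -/
structure IsLiftFam (h : (V → ℂ) →ₗ[ℂ] (ℍ → ℂ)) : Prop where
  mdiff : ∀ φ, MDiff (h φ)
  zero : ∀ φ, ∀ c : OnePoint ℝ, IsCusp c 𝒮ℒ → c.IsZeroAt (h φ) (1 : ℤ)
  law : ∀ γ : SL(2, ℤ), γ ∈ Gamma0 M → ∀ φ, h φ ∣[(1 : ℤ)] γ = chiC (γ 1 1) • h (W γ⁻¹ φ)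
  inv : ∀ u φ, h (act u φ) = χ u • h φ

/-- The space of families. -/
def famSpace : Submodule ℂ ((V → ℂ) →ₗ[ℂ] (ℍ → ℂ)) where
  carrier := {h | IsLiftFam M W act χ h}
  zero_mem' :=
    { mdiff := fun _ => mdifferentiable_const
      zero := fun _ c _ g _ => by
        rw [LinearMap.zero_apply, SlashAction.zero_slash]
        exact Filter.zero_zeroAtFilter _
      law := fun γ _ φ => by simp only [LinearMap.zero_apply, SlashAction.zero_slash, smul_zero]
      inv := fun u φ => by simp }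
  add_mem' {a b} ha hb :=
    { mdiff := fun φ => (ha.mdiff φ).add (hb.mdiff φ)
      zero := fun φ c hc => (ha.zero φ c hc).add (hb.zero φ c hc)
      law := fun γ hγ φ => by
        simp only [LinearMap.add_apply, SlashAction.add_slash, ha.law γ hγ, hb.law γ hγ, smul_add]
      inv := fun u φ => by simp only [LinearMap.add_apply, ha.inv, hb.inv, smul_add] }
  smul_mem' c {h} hh :=
    { mdiff := fun φ => (hh.mdiff φ).const_smul c
      zero := fun φ p hp g hg => by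
        rw [LinearMap.smul_apply, ModularForm.smul_slash]
        exact (hh.zero φ p hp g hg).smul _
      law := fun γ hγ φ => by
        simp only [LinearMap.smul_apply, ModularForm.SL_smul_slash, hh.law γ hγ, smul_comm c]
      inv := fun u φ => by simp only [LinearMap.smul_apply, hh.inv, smul_comm c] }

variable {M D} {W} {act} {χ}

theorem rep_eq_of_congMod (hW : ∀ g ∈ CongruenceSubgroup.Gamma D, W g = 1) {γ γ' : SL(2, ℤ)}
    (h : CongMod D (γ' : Matrix (Fin 2) (Fin 2) ℤ) (γ : Matrix (Fin 2) (Fin 2) ℤ)) :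
    W γ'⁻¹ = W γ⁻¹ := by
  have hm : γ'⁻¹ * γ ∈ CongruenceSubgroup.Gamma D := by
    apply MonoidHom.mem_ker.mpr
    rw [map_mul, map_inv, inv_mul_eq_one]
    exact Subtype.ext h
  rw [show γ'⁻¹ = γ'⁻¹ * γ * γ⁻¹ by group, map_mul, hW _ hm, one_mul]

/-- `T_ℓ` on families. -/
def heckeFam (ℓ D : ℕ) [NeZero ℓ] :
    Module.End ℂ ((V → ℂ) →ₗ[ℂ] (ℍ → ℂ)) where
  toFun h :=
    { toFun := fun φ => heckeD ℓ D (h φ)
      map_add' := fun a b => by rw [map_add, heckeD_add]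
      map_smul' := fun c a => by rw [map_smul, heckeD_smul, RingHom.id_apply] }
  map_add' a b := LinearMap.ext fun φ => heckeD_add D (a φ) (b φ)
  map_smul' c a := LinearMap.ext fun φ => heckeD_smul D c (a φ)

theorem heckeFam_apply (ℓ D : ℕ) [NeZero ℓ] (h : (V → ℂ) →ₗ[ℂ] (ℍ → ℂ)) (φ : V → ℂ) :
    heckeFam ℓ D h φ = heckeD ℓ D (h φ) := rfl

theorem IsLiftFam.heckeFam {h : (V → ℂ) →ₗ[ℂ] (ℍ → ℂ)} (hh : IsLiftFam M W act χ h)
    (hW : ∀ g ∈ CongruenceSubgroup.Gamma D, W g = 1) {ℓ : ℕ} [NeZero ℓ] (hℓ : ℓ.Prime)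
    (hM : ¬ ℓ ∣ M) (h3M : 3 ∣ M) (hℓD : (ℓ : ZMod D) = 1) (hDℓ : (D : ZMod ℓ) ≠ 0) :
    IsLiftFam M W act χ (heckeFam ℓ D h) where
  mdiff φ := by
    simp only [heckeFam_apply, heckeD]
    exact Finset.sum_induction _ (fun F : ℍ → ℂ => MDiff F)
      (fun a b ha hb => ha.add hb)
      mdifferentiable_const fun i _ => ((hh.mdiff φ).slash 1 _).const_smul _
  zero φ c hc := by
    simp only [heckeFam_apply, heckeD]
    refine Finset.sum_induction _ (fun F => OnePoint.IsZeroAt c F (1 : ℤ))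
      (fun a b ha hb => ha.add hb) (fun g _ => by
        rw [SlashAction.zero_slash]; exact Filter.zero_zeroAtFilter _) fun i _ g hg => ?_
    rw [ModularForm.smul_slash]
    exact (isZeroAt_slash_intGL (hh.zero φ) _ hc g hg).smul _
  law γ hγ φ := heckeD_slash_SL hℓ hM h3M hℓD hDℓ hγ _ _ fun γ' hγ' hc => by
    rw [hh.law γ' hγ', rep_eq_of_congMod hW hc]
  inv u φ := by rw [heckeFam_apply, hh.inv, heckeD_smul, heckeFam_apply]

end Fermat.Agent.ResidualThree.SquarefreeLevel
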