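import Fermat.Agent.Attach.Inputs
import Fermat.Agent.Attach.Residual
import Fermat.Agent.Attach.UnipotentAt
import Fermat.Agent.Gal.RepTwo
import Fermat.Agent.TwoComponent.Unipotent

/-!
# A residual representation is unipotent on inertia at a prime dividing the level exactly once

At a prime exactly dividing the level inertia acts on the residual representation with trace `2`;
this pins down the twist in the comparison with the curve.
-/

noncomputable section

open CongruenceSubgroup Fermat.Agent.Attach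

namespace Fermat.Agent.ResidualThree.SquarefreeLevel

local notation "Qbar" => AlgebraicClosure ℚ
local notation "GQ" => (AlgebraicClosure ℚ ≃ₐ[ℚ] AlgebraicClosure ℚ)

variable {N : ℕ} [NeZero N] {p : ℕ} [Fact p.Prime]

/-- A square-zero matrix `R - 1` gives `R + R⁻¹ = 2`. -/
theorem add_inv_eq_two {A : Type*} [Ring A] {R R' : A} (h : (R - 1) * (R - 1) = 0)
    (hR : R' * R = 1) : R + R' = 2 := by
  have h1 : R' * ((R - 1) * (R - 1)) = 0 := by rw [h, mul_zero]
  have h2 : R' * ((R - 1) * (R - 1)) = R' * R * R - (R' * R + R' * R) + R' := by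
    noncomm_ring
  rw [h2, hR, one_mul] at h1
  calc R + R' = (R - (1 + 1) + R') + (1 + 1) := by abel
    _ = 2 := by rw [h1, zero_add, one_add_one_eq_two]

/-- **The trace of inertia.** -/
theorem trace_inertia_two {g : CuspForm (Gamma0 N) 2} (hg : g.IsNormalizedEigenform) {q : ℕ}
    (hq : q.Prime) (hqp : q ≠ p) (hqN : q ∣ N) (hq2 : ¬ q ^ 2 ∣ N) {k : Type} [Field k] [CharP k p]
    (φ : integralClosure ℤ ℂ →+* k) (ρh : ResidualGaloisRep k) (hatt : ρh.IsAttachedTo g φ)
    {P : ValuationSubring Qbar} (hP : P.LiesOverPrime q) {σ : GQ}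
    (hσ : σ ∈ P.inertiaSubgroupIn ℚ) :
    LinearMap.trace k ρh.V (ρh.ρ σ) = 2 := by
  classical
  have hp : p.Prime := Fact.out
  let S : Finset ℕ := (N * p).primeFactors
  have hNp0 : N * p ≠ 0 := mul_ne_zero (NeZero.ne N) hp.ne_zero
  have hNS : ∀ r, r.Prime → r ∣ N → r ∈ (↑S : Set ℕ) := fun r hr h =>
    Nat.mem_primeFactors.mpr ⟨hr, h.mul_right p, hNp0⟩
  have hpS : p ∈ S := Nat.mem_primeFactors.mpr ⟨hp, dvd_mul_left p N, hNp0⟩
  obtain ⟨χ, hχ⟩ := exists_eigenChar hg hNS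
  let Ins := (nonempty_jacobianInputs N p).some
  set M := Ins.model
  have hint : ∀ t : CuspForm.heckeAlgebra N 2 (↑S : Set ℕ), IsIntegral ℤ t :=
    isIntegral_of_faithful (M.hecke.comp (toAnemic hNS))
      (M.hecke_injective.comp (toAnemic_injective hNS))
  let χ' : CuspForm.heckeAlgebra N 2 (↑S : Set ℕ) →+* integralClosure ℤ ℂ :=
    χ.codRestrict (integralClosure ℤ ℂ).toSubring fun t => (hint t).map χ.toIntAlgHom
  let θ := φ.comp χ'
  obtain ⟨v, hv0, hv⟩ := exists_eigvec (M.mat.comp (toAnemic hNS))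
    (M.mat_injective.comp (toAnemic_injective hNS)) θ
  obtain ⟨L, hL, hfac⟩ := ρh.factorsThroughFiniteLevel
  have : FiniteDimensional ℚ L := hL
  obtain ⟨ℓ, hℓ, hℓN, hℓS, A, τ, j, hA, hτ, hστ, -, hb⟩ :=
    M.exists_trace_element Ins.galois hpS hNS 1 σ L
  set b := powTrace (CuspForm.heckeAlgebra.T hℓ hℓN hℓS)
    (ℓ : CuspForm.heckeAlgebra N 2 (↑S : Set ℕ)) j with hbdef
  -- on the `p`-torsion
  have hsq := M.rep_sub_one_sq 1 σ fun y hy =>
    TwoComponent.inertia_smul_sub N q hq hqN hq2 hP hσ hσ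
      (fun h => hqp ((Nat.prime_dvd_prime_iff_eq hq hp).mp (hq.dvd_of_dvd_pow h))) hy
  rw [cyc_inertia p 1 hq hqp hP hσ, one_smul,
    add_inv_eq_two hsq (by rw [← map_mul, inv_mul_cancel, map_one])] at hb
  let ι : ZMod (p ^ 1) →+* k := ZMod.castHom (pow_one p).symm.dvd k
  have hθb : θ b = 2 := by
    have h1 := hv b
    have e : ((M.mat.comp (toAnemic hNS)) b).map (Int.castRingHom k) =
        ι.mapMatrix (M.matS hNS 1 b) := by
      ext i i'
      exact (map_intCast ι _).symm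
    rw [e, ← hb, map_ofNat, ← one_add_one_eq_two, Matrix.add_mulVec, Matrix.one_mulVec,
      ← two_smul k v] at h1
    exact (smul_left_injective k hv0 h1).symm
  -- on `ρh`
  have hρ : ρh.ρ σ = ρh.ρ τ ^ j := by
    have hfix : ∀ a ∈ L, ((τ ^ j)⁻¹ * σ) a = a := fun a ha => by
      show (τ ^ j)⁻¹ (σ a) = a
      rw [hστ a ha]
      exact (τ ^ j).symm_apply_apply a
    rw [← map_pow, ← mul_inv_cancel_left (τ ^ j) σ, map_mul, hfac _ hfix, mul_one]
  have hℓp : ℓ ≠ p := fun h => hℓS (h ▸ hpS)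
  have hk : (ℓ : k) ≠ 0 := by
    rw [Ne, CharP.cast_eq_zero_iff _ p]
    exact fun h => hℓp ((Nat.prime_dvd_prime_iff_eq hp hℓ).1 h).symm
  obtain ⟨a, ha, hcp⟩ := hatt ℓ hℓ hℓN hk A hA τ hτ
  rw [Gal.charpoly_fin_two' ρh.finrank_eq] at hcp
  have h1 := congrArg (fun r : Polynomial k => r.coeff 1) hcp
  have h0 := congrArg (fun r : Polynomial k => r.coeff 0) hcp
  simp [Polynomial.coeff_X_pow, Polynomial.coeff_C] at h1 h0
  let B := Gal.basisTwo ρh.finrank_eq
  let Rτ := LinearMap.toMatrixAlgEquiv B (ρh.ρ τ)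
  have hRtr : Rτ.trace = φ a := by
    rw [← h1, LinearMap.trace_eq_matrix_trace k B]; rfl
  have hRdet : Rτ.det = (ℓ : k) := by
    rw [← h0, ← LinearMap.det_toMatrix B]; rfl
  have haT : a = χ' (CuspForm.heckeAlgebra.T hℓ hℓN hℓS) :=
    Subtype.ext (ha.trans (hχ ℓ hℓ hℓN hℓS).symm)
  calc LinearMap.trace k ρh.V (ρh.ρ σ) = (Rτ ^ j).trace := by
        rw [hρ, LinearMap.trace_eq_matrix_trace k B]
        exact congrArg Matrix.trace (map_pow (LinearMap.toMatrixAlgEquiv B) (ρh.ρ τ) j)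
    _ = powTrace (φ a) (ℓ : k) j := by
        rw [trace_pow_eq_powTrace _ (by rw [hRdet]; exact hk.isUnit), hRtr, hRdet]
    _ = θ b := by rw [hbdef, map_powTrace, map_natCast, haT]; rfl
    _ = 2 := hθb

end Fermat.Agent.ResidualThree.SquarefreeLevel
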