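import Mathlib.Data.Nat.Squarefree
import Fermat.Agent.RemoveThree.Residual
import Fermat.Agent.ResidualThree.Galois.Image
import Fermat.Agent.ResidualThree.SquarefreeLevel.Unipotent
import Fermat.Agent.ResidualThree.WeightTwo.Compare
import Fermat.Agent.TW.InertiaOmega

/-!
# Congruence at `ℓ ≡ 1 (mod D)` gives congruence everywhere

For squarefree `D` prime to `3` whose primes divide the level exactly once, an eigenform congruent
to the curve at the primes `ℓ ≡ 1 (mod D)` has representation `ρ̄ ⊗ η` with `η` killed by inertia at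
the primes of `D`, so `η = 1`.
-/

noncomputable section

open CongruenceSubgroup ModularFormClass WeierstrassCurve

namespace Fermat.Agent.ResidualThree.SquarefreeLevel

local notation "Qbar" => AlgebraicClosure ℚ
local notation "GQ" => AlgebraicClosure ℚ ≃ₐ[ℚ] AlgebraicClosure ℚ
local notation "G48" => GL (Fin 2) (ZMod 3)
local notation "M2" => Matrix (Fin 2) (Fin 2) (ZMod 3)

/-- The automorphisms fixing `ζ`. -/
def galD (ζ : Qbar) : Subgroup GQ where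
  carrier := {σ | σ ζ = ζ}
  one_mem' := rfl
  mul_mem' {a b} ha hb := by
    show a (b ζ) = ζ
    rw [show b ζ = ζ from hb, show a ζ = ζ from ha]
  inv_mem' {a} ha := by
    show a.symm ζ = ζ
    conv_lhs => rw [← show a ζ = ζ from ha]
    exact a.symm_apply_apply ζ

theorem mem_galD {ζ : Qbar} {σ : GQ} : σ ∈ galD ζ ↔ σ ζ = ζ := Iff.rfl

variable {D : ℕ} [NeZero D] {ζ : Qbar} (hζ : IsPrimitiveRoot ζ D)

include hζ in
/-- An automorphism maps `ζ` to a power of `ζ`. -/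
theorem exists_pow_eq (σ : GQ) : ∃ i : ℕ, σ ζ = ζ ^ i := by
  obtain ⟨i, -, hi⟩ := hζ.eq_pow_of_pow_eq_one (ξ := σ ζ)
    (by rw [← map_pow, hζ.pow_eq_one, map_one])
  exact ⟨i, hi.symm⟩

include hζ in
/-- Automorphisms commute on the `D`-th roots of unity. -/
theorem comm_apply (a b : GQ) {η : Qbar} (hη : η ^ D = 1) : a (b η) = b (a η) := by
  obtain ⟨m, -, rfl⟩ := hζ.eq_pow_of_pow_eq_one hη
  obtain ⟨i, hi⟩ := exists_pow_eq hζ a
  obtain ⟨j, hj⟩ := exists_pow_eq hζ b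
  simp only [map_pow, hi, hj, ← pow_mul]
  congr 1
  ring

include hζ in
/-- Commutators fix `ζ`. -/
theorem commutator_mem_galD (a b : GQ) : a * b * a⁻¹ * b⁻¹ ∈ galD ζ := by
  show a (b (a⁻¹ (b⁻¹ ζ))) = ζ
  rw [comm_apply hζ a b (by rw [← map_pow, ← map_pow, hζ.pow_eq_one, map_one, map_one])]
  show b (a (a.symm (b.symm ζ))) = ζ
  rw [a.apply_symm_apply, b.apply_symm_apply]

include hζ in
/-- `galD ζ` is normal. -/
theorem conj_mem_galD (c : GQ) {σ : GQ} (hσ : σ ∈ galD ζ) : c * σ * c⁻¹ ∈ galD ζ := by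
  obtain ⟨i, hi⟩ := exists_pow_eq hζ c⁻¹
  show c (σ (c⁻¹ ζ)) = ζ
  rw [hi, map_pow, mem_galD.1 hσ, ← hi]
  exact c.apply_symm_apply ζ

/-- An element of inertia at `q` acting on the `q`-th roots of unity as prescribed. -/
theorem exists_inertia_roots {q : ℕ} (hq : q.Prime) (c : GQ) :
    ∃ A : ValuationSubring Qbar, A.LiesOverPrime q ∧ ∃ σ ∈ A.inertiaSubgroupIn ℚ,
      ∀ η : Qbar, η ^ q = 1 → σ η = c η := by
  obtain ⟨A, -, hA, -⟩ := Gal.exists_liesOverPrime_isFrobeniusAt hq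
  refine ⟨A, hA, ?_⟩
  by_cases h2 : q = 2
  · refine ⟨1, one_mem _, fun η hη => ?_⟩
    subst h2
    rcases (mul_self_eq_one_iff (a := η)).1 (by rwa [← pow_two]) with rfl | rfl
    · rw [map_one, map_one]
    · rw [map_neg, map_one, map_neg, map_one]
  · have : Fact q.Prime := ⟨hq⟩
    obtain ⟨σ, hσ, hω⟩ := TW.exists_inertia_omega hA h2 ((TW.cycQ q).ω c)
    refine ⟨σ, hσ, fun η hη => ?_⟩
    have hz := TW.zetaP_spec (p := q)
    have h1 := hz.autToPow_spec ℚ σ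
    have h2 := hz.autToPow_spec ℚ c
    have hω' : hz.autToPow ℚ σ = hz.autToPow ℚ c := hω
    rw [hω'] at h1
    obtain ⟨m, -, rfl⟩ := hz.eq_pow_of_pow_eq_one hη
    rw [map_pow, map_pow, ← h1, ← h2]

omit [NeZero D] in
/-- Divisibility by a squarefree number can be checked at its primes. -/
theorem intCast_dvd_of_squarefree (hD : Squarefree D) {x : ℤ}
    (h : ∀ q : ℕ, q.Prime → q ∣ D → (q : ℤ) ∣ x) : (D : ℤ) ∣ x := by
  rw [← Nat.prod_primeFactors_of_squarefree hD, Nat.cast_prod]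
  refine Finset.prod_dvd_of_coprime (fun a ha b hb hab => ?_) fun q hq =>
    h q (Nat.prime_of_mem_primeFactors hq) (Nat.dvd_of_mem_primeFactors hq)
  exact Nat.isCoprime_iff_coprime.2 ((Nat.coprime_primes
    (Nat.prime_of_mem_primeFactors ha) (Nat.prime_of_mem_primeFactors hb)).2 hab)

include hζ in
/-- Fixing the `q`-th roots of unity for all `q ∣ D` fixes `ζ`. -/
theorem mem_galD_of_roots (hD : Squarefree D) {σ : GQ}
    (h : ∀ q : ℕ, q.Prime → q ∣ D → ∀ η : Qbar, η ^ q = 1 → σ η = η) : σ ∈ galD ζ := by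
  obtain ⟨i, hi⟩ := exists_pow_eq hζ σ
  have hd : (D : ℤ) ∣ (i : ℤ) - 1 := intCast_dvd_of_squarefree hD fun q hq ⟨e, he⟩ => by
    have he0 : e ≠ 0 := fun h0 => NeZero.ne D (by rw [he, h0, mul_zero])
    have hprim := hζ.pow_of_dvd he0 (Dvd.intro_left q he.symm)
    rw [show D / e = q by rw [he, Nat.mul_div_cancel _ (Nat.pos_of_ne_zero he0)]] at hprim
    have h1 := h q hq ⟨e, he⟩ (ζ ^ e) hprim.pow_eq_one
    rw [map_pow, hi, ← pow_mul, mul_comm, pow_mul] at h1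
    have h2 : ((ζ ^ e) ^ ((i : ℤ) - 1)) = 1 := by
      rw [zpow_sub₀ (hprim.ne_zero hq.ne_zero), zpow_natCast, zpow_one, h1,
        div_self (hprim.ne_zero hq.ne_zero)]
    exact (hprim.zpow_eq_one_iff_dvd _).1 h2
  obtain ⟨m, hm⟩ := hd
  show σ ζ = ζ
  rw [hi, ← zpow_natCast, show (i : ℤ) = 1 + (D : ℤ) * m by omega,
    zpow_add₀ (hζ.ne_zero (NeZero.ne D)), zpow_one, zpow_mul, zpow_natCast, hζ.pow_eq_one,
    one_zpow, mul_one]

/-- A `2 × 2` matrix over `𝔽₃` of cube one has trace `2`. -/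
theorem trace_of_cube {m : M2} (h : m * m * m = 1) : m.trace = 2 := by
  have key : ∀ a b c d : ZMod 3,
      (a * a + b * c) * a + (a * b + b * d) * c = 1 →
      (a * a + b * c) * b + (a * b + b * d) * d = 0 →
      (c * a + d * c) * a + (c * b + d * d) * c = 0 →
      (c * a + d * c) * b + (c * b + d * d) * d = 1 →
      a + d = 2 := by decide
  have e := fun i j => congrFun (congrFun h i) j
  rw [Matrix.trace_fin_two]
  exact key (m 0 0) (m 0 1) (m 1 0) (m 1 1)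
    (by simpa [Matrix.mul_apply, Fin.sum_univ_two] using e 0 0)
    (by simpa [Matrix.mul_apply, Fin.sum_univ_two] using e 0 1)
    (by simpa [Matrix.mul_apply, Fin.sum_univ_two] using e 1 0)
    (by simpa [Matrix.mul_apply, Fin.sum_univ_two] using e 1 1)

variable {W : WeierstrassCurve ℤ} (hΔ : W.Δ ≠ 0) {k : Type} [Field k] (ι : ZMod 3 →+* k)

include hζ in
/-- An element of order `3` inverted by an involution is the image of an element fixing `ζ`. -/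
theorem exists_galD_rho (hsurj : Function.Surjective (rho hΔ)) (g : G48) (hg : g ^ 3 = 1)
    (c : G48) (hc : c * c = 1) (hcg : c * g * c = g⁻¹) :
    ∃ σ ∈ galD ζ, rho hΔ σ = g := by
  obtain ⟨s, hs⟩ := hsurj c
  obtain ⟨t, ht⟩ := hsurj g
  refine ⟨_, commutator_mem_galD hζ s t, ?_⟩
  rw [map_mul, map_mul, map_mul, map_inv, map_inv, hs, ht, inv_eq_of_mul_eq_one_right hc, hcg]
  calc g⁻¹ * g⁻¹ = g⁻¹ * g⁻¹ * (g ^ 3) := by rw [hg, mul_one]
    _ = g := by group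

include hζ in
/-- The two unipotent generators of `SL₂(𝔽₃)` are images of automorphisms fixing `ζ`. -/
theorem exists_galD_rho_unip (hsurj : Function.Surjective (rho hΔ)) :
    (∃ σ ∈ galD ζ, ((rho hΔ σ : G48) : M2) = !![1, 1; 0, 1]) ∧
      ∃ σ ∈ galD ζ, ((rho hΔ σ : G48) : M2) = !![1, 0; 1, 1] := by
  let c : G48 := Matrix.GeneralLinearGroup.mkOfDetNeZero (!![1, 0; 0, -1] : M2) (by decide)
  have hc : c * c = 1 := Units.ext (by
    show (!![1, 0; 0, -1] : M2) * !![1, 0; 0, -1] = 1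
    decide)
  have key : ∀ g : G48, (g : M2) ^ 3 = 1 →
      (g : M2) * ((c : M2) * (g : M2) * (c : M2)) = 1 →
      ∃ σ ∈ galD ζ, ((rho hΔ σ : G48) : M2) = g := fun g h3 hconj => by
    obtain ⟨σ, hσ, hρ⟩ := exists_galD_rho hζ hΔ hsurj g
      (Units.ext (by rw [Units.val_pow_eq_pow_val, h3, Units.val_one])) c hc
      (inv_eq_of_mul_eq_one_right (Units.ext hconj)).symm
    exact ⟨σ, hσ, by rw [hρ]⟩
  exact ⟨key (Matrix.GeneralLinearGroup.mkOfDetNeZero (!![1, 1; 0, 1] : M2) (by decide))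
      (by show (!![1, 1; 0, 1] : M2) ^ 3 = 1; decide)
      (by show (!![1, 1; 0, 1] : M2) * (!![1, 0; 0, -1] * !![1, 1; 0, 1] * !![1, 0; 0, -1]) = 1
          decide),
    key (Matrix.GeneralLinearGroup.mkOfDetNeZero (!![1, 0; 1, 1] : M2) (by decide))
      (by show (!![1, 0; 1, 1] : M2) ^ 3 = 1; decide)
      (by show (!![1, 0; 1, 1] : M2) * (!![1, 0; 0, -1] * !![1, 0; 1, 1] * !![1, 0; 0, -1]) = 1
          decide)⟩

include hζ in
/-- The restriction of `ρ̄` to the automorphisms fixing `ζ` has a trace basis. -/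
theorem hasTraceBasis_galD (hsurj : Function.Surjective (rho hΔ)) :
    Gal.HasTraceBasis ((tauLin hΔ ι).comp (galD ζ).subtype) := by
  obtain ⟨⟨su, hsu, hρu⟩, sl, hsl, hρl⟩ := exists_galD_rho_unip hζ hΔ hsurj
  let g : Fin 4 → galD ζ := ![1, ⟨su, hsu⟩, ⟨sl, hsl⟩, ⟨su * sl, mul_mem hsu hsl⟩]
  have hg : ∀ i, ((rho hΔ (g i).1 : G48) : M2) =
      (![1, !![1, 1; 0, 1], !![1, 0; 1, 1], !![2, 1; 1, 1]] : Fin 4 → M2) i := by
    intro i
    fin_cases i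
    · simp [g]
    · show ((rho hΔ su : G48) : M2) = _
      rw [hρu]; rfl
    · show ((rho hΔ sl : G48) : M2) = _
      rw [hρl]; rfl
    · show ((rho hΔ (su * sl) : G48) : M2) = _
      rw [map_mul, Units.val_mul, hρu, hρl]
      show (!![1, 1; 0, 1] : M2) * !![1, 0; 1, 1] = !![2, 1; 1, 1]
      decide
  refine ⟨g, ?_⟩
  have key : (Matrix.of fun i j => LinearMap.trace k (Fin 2 → k)
      (((tauLin hΔ ι).comp (galD ζ).subtype) (g i) *
        ((tauLin hΔ ι).comp (galD ζ).subtype) (g j))) =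
      (Matrix.of fun i j : Fin 4 =>
        ((![1, !![1, 1; 0, 1], !![1, 0; 1, 1], !![2, 1; 1, 1]] : Fin 4 → M2) i *
          (![1, !![1, 1; 0, 1], !![1, 0; 1, 1], !![2, 1; 1, 1]] : Fin 4 → M2) j).trace).map ι := by
    refine Matrix.ext fun i j => ?_
    rw [Matrix.of_apply, Matrix.map_apply, Matrix.of_apply, ← map_mul, MonoidHom.comp_apply,
      trace_tauLin, map_mul, map_mul, Units.val_mul, ← hg i, ← hg j]
    rfl
  rw [key, ← RingHom.mapMatrix_apply, ← RingHom.map_det]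
  refine (IsUnit.mk0 _ ?_).map ι
  decide

/-- A subgroup containing `galD ζ` and inertia at the primes of `D` contains everything. -/
theorem mem_of_inertia {ζ : Qbar} {D : ℕ} [NeZero D] (hζ : IsPrimitiveRoot ζ D)
    (hD : Squarefree D)
    (E : Subgroup GQ) (hK : ∀ σ ∈ galD ζ, σ ∈ E)
    (hI : ∀ q : ℕ, q.Prime → q ∣ D → ∀ A : ValuationSubring Qbar, A.LiesOverPrime q →
      ∀ σ ∈ A.inertiaSubgroupIn ℚ, σ ∈ E) (c : GQ) : c ∈ E := by
  have key : ∀ T : Finset ℕ, T ⊆ D.primeFactors → ∃ x ∈ E,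
      (∀ q ∈ T, ∀ η : Qbar, η ^ q = 1 → x η = c η) ∧
      ∀ q ∈ D.primeFactors, q ∉ T → ∀ η : Qbar, η ^ q = 1 → x η = η := by
    intro T
    induction T using Finset.induction_on with
    | empty => exact fun _ => ⟨1, one_mem _, by simp, fun _ _ _ _ _ => rfl⟩
    | insert q T hqT ih =>
      intro hsub
      rw [Finset.insert_subset_iff] at hsub
      obtain ⟨x, hx, h1, h2⟩ := ih hsub.2
      have hq := Nat.prime_of_mem_primeFactors hsub.1
      obtain ⟨A, hA, σ, hσ, hσq⟩ := exists_inertia_roots hq c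
      have hfix : ∀ r ∈ D.primeFactors, r ≠ q → ∀ η : Qbar, η ^ r = 1 → σ η = η :=
        fun r hr hne η hη => Gal.inertia_rootOfUnity hq hA hσ (fun h => hne
          ((Nat.prime_dvd_prime_iff_eq hq (Nat.prime_of_mem_primeFactors hr)).1 h).symm) hη
      refine ⟨x * σ, mul_mem hx (hI q hq (Nat.dvd_of_mem_primeFactors hsub.1) A hA σ hσ),
        fun r hr η hη => ?_, fun r hr hrT η hη => ?_⟩
      · show x (σ η) = c η
        rcases Finset.mem_insert.1 hr with rfl | hr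
        · rw [hσq η hη, h2 r hsub.1 hqT (c η) (by rw [← map_pow, hη, map_one])]
        · rw [hfix r (hsub.2 hr) (fun h => hqT (h ▸ hr)) η hη, h1 r hr η hη]
      · rw [Finset.mem_insert, not_or] at hrT
        show x (σ η) = η
        rw [hfix r hr hrT.1 η hη, h2 r hr hrT.2 η hη]
  obtain ⟨x, hx, h1, -⟩ := key _ subset_rfl
  have hm : x⁻¹ * c ∈ galD ζ := mem_galD_of_roots hζ hD fun q hq hqD η hη => by
    show x.symm (c η) = η
    rw [← h1 q (Nat.mem_primeFactors.2 ⟨hq, hqD, hD.ne_zero⟩) η hη, AlgEquiv.symm_apply_apply]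
  rw [← mul_inv_cancel_left x c]
  exact mul_mem hx (hK _ hm)

/-- **No twist.** -/
theorem congr_of_congr_one_mod [CharP k 3] (φ : integralClosure ℤ ℂ →+* k)
    (hW : W.IsSemistableModel) (hsurj : Function.Surjective (rho hΔ)) {N : ℕ} [NeZero N]
    {g : CuspForm (Gamma0 N) 2} (hg : g.IsNormalizedEigenform)
    (a : ℕ → integralClosure ℤ ℂ)
    (ha : ∀ ℓ : ℕ, ℓ.Prime → ¬ ℓ ∣ N → (a ℓ : ℂ) = qCoeff ⇑g ℓ)
    {D : ℕ} (hD : Squarefree D) (h3D : ¬ 3 ∣ D)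
    (hDN : ∀ q : ℕ, q.Prime → q ∣ D → q ∣ N ∧ ¬ q ^ 2 ∣ N) (S : Finset ℕ)
    (hsplit : ∀ ℓ : ℕ, ℓ.Prime → ¬ ℓ ∣ N → ℓ ∉ S → (D : ℤ) ∣ (ℓ : ℤ) - 1 →
      φ (a ℓ) = (W.apOfModel ℓ : k)) :
    ∀ ℓ : ℕ, ℓ.Prime → ¬ ℓ ∣ N → ℓ ≠ 3 → W.IsGoodPrimeFor ℓ →
        φ (a ℓ) = (W.apOfModel ℓ : k) := by
  classical
  have : NeZero D := ⟨hD.ne_zero⟩
  have : NeZero (D : Qbar) := ⟨Nat.cast_ne_zero.2 hD.ne_zero⟩
  obtain ⟨ζ, hζ⟩ := HasEnoughRootsOfUnity.exists_primitiveRoot Qbar D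
  let ι : ZMod 3 →+* k := ZMod.castHom dvd_rfl k
  have hfk : Module.finrank k (Fin 2 → k) = 2 := Module.finrank_fin_fun k
  obtain ⟨ρh, hatt, -⟩ := S29.result hg Nat.prime_three φ
  obtain ⟨L₁, hL₁, h₁⟩ := rho_factors hΔ
  obtain ⟨L₂, hL₂, h₂⟩ := ρh.factorsThroughFiniteLevel
  have : FiniteDimensional ℚ L₁ := hL₁
  have : FiniteDimensional ℚ L₂ := hL₂
  let F : IntermediateField ℚ Qbar := IntermediateField.adjoin ℚ {ζ}
  have : FiniteDimensional ℚ F :=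
    IntermediateField.adjoin.finiteDimensional (Algebra.IsIntegral.isIntegral ζ)
  have heq : ∀ u v : GQ, (∀ x ∈ L₁ ⊔ L₂ ⊔ F, u x = v x) →
      rho hΔ u = rho hΔ v ∧ ρh.ρ u = ρh.ρ v ∧ u ζ = v ζ := by
    intro u v h
    have hfix : ∀ x ∈ L₁ ⊔ L₂ ⊔ F, (v⁻¹ * u) x = x := fun x hx => by
      show v.symm (u x) = x
      rw [h x hx, AlgEquiv.symm_apply_apply]
    refine ⟨?_, ?_, h ζ ((le_sup_right : F ≤ L₁ ⊔ L₂ ⊔ F)
      (IntermediateField.mem_adjoin_simple_self ℚ ζ))⟩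
    · rw [← mul_inv_cancel_left v u, map_mul,
        h₁ _ fun x hx => hfix x ((le_sup_left.trans le_sup_left : L₁ ≤ L₁ ⊔ L₂ ⊔ F) hx), mul_one]
    · rw [← mul_inv_cancel_left v u, map_mul,
        h₂ _ fun x hx => hfix x ((le_sup_right.trans le_sup_left : L₂ ≤ L₁ ⊔ L₂ ⊔ F) hx), mul_one]
  let T : Finset ℕ := S ∪ N.primeFactors ∪ W.Δ.natAbs.primeFactors ∪ {3}
  -- at a Frobenius
  have hFrob : ∀ ℓ : ℕ, ℓ.Prime → ¬ ℓ ∣ N → ℓ ≠ 3 → W.IsGoodPrimeFor ℓ →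
      ∀ A : ValuationSubring Qbar, A.LiesOverPrime ℓ → ∀ σ : GQ, A.IsFrobeniusAt σ ℓ →
        LinearMap.trace _ _ (ρh.ρ σ) = φ (a ℓ) ∧
        LinearMap.det (ρh.ρ σ) = LinearMap.det (tauLin hΔ ι σ) ∧
        LinearMap.trace _ _ (tauLin hΔ ι σ) = (W.apOfModel ℓ : k) :=
    fun ℓ hℓ hℓN hℓ3 hgood A hA σ hσ =>
      have h := frobenius_trace_det hΔ ι hatt ha hℓ hℓN hℓ3 hgood hA hσ
      ⟨h.1, h.2.1, h.2.2.2⟩
  have hdet : ∀ σ, LinearMap.det (ρh.ρ σ) = LinearMap.det (tauLin hΔ ι σ) := by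
    intro σ
    obtain ⟨ℓ, hℓ, hℓT, A, hA, s, hs, i, j, hi, -⟩ :=
      Gal.exists_frobenius_generates (L₁ ⊔ L₂ ⊔ F) σ T
    obtain ⟨-, hℓN, hℓ3, hgood⟩ := good_of_notMem hΔ (NeZero.ne N) hℓ hℓT
    obtain ⟨e1, e2, -⟩ := heq σ (s ^ i) hi
    rw [e2, map_pow, map_pow, (hFrob ℓ hℓ hℓN hℓ3 hgood A hA s hs).2.1, ← map_pow, ← map_pow,
      tauLin_apply, tauLin_apply, e1]
  -- equal traces on `galD`
  have htrK : ∀ σ : galD ζ, LinearMap.trace _ _ (tauLin hΔ ι σ.1) =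
      LinearMap.trace _ _ (ρh.ρ σ.1) := by
    rintro ⟨σ, hσ⟩
    obtain ⟨ℓ, hℓ, hℓT, A, hA, s, hs, i, j, hi, hj⟩ :=
      Gal.exists_frobenius_generates (L₁ ⊔ L₂ ⊔ F) σ T
    obtain ⟨hℓS, hℓN, hℓ3, hgood⟩ := good_of_notMem hΔ (NeZero.ne N) hℓ hℓT
    obtain ⟨t1, t2, t4⟩ := hFrob ℓ hℓ hℓN hℓ3 hgood A hA s hs
    obtain ⟨e1, e2, -⟩ := heq σ (s ^ i) hi
    obtain ⟨-, -, e3⟩ := heq s (σ ^ j) hj
    have hsζ : s ζ = ζ := by
      rw [e3]
      exact pow_mem (show σ ∈ galD ζ from hσ) j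
    have hℓD : ¬ ℓ ∣ D := fun hd => hℓN (hDN ℓ hℓ hd).1
    have hdvd : (D : ℤ) ∣ (ℓ : ℤ) - 1 := by
      have h := Gal.isFrobeniusAt_rootOfUnity hℓ hA hs hℓD hζ.pow_eq_one
      rw [hsζ, show ℓ = ℓ - 1 + 1 from (Nat.succ_pred_eq_of_pos hℓ.pos).symm, pow_succ] at h
      have h1 := Int.natCast_dvd_natCast.2 ((hζ.pow_eq_one_iff_dvd _).1
        (mul_right_cancel₀ (hζ.ne_zero hD.ne_zero) (h.symm.trans (one_mul ζ).symm)))
      rwa [Nat.cast_sub hℓ.one_le, Nat.cast_one] at h1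
    have hs2 : LinearMap.charpoly (tauLin hΔ ι s) = LinearMap.charpoly (ρh.ρ s) := by
      rw [Gal.charpoly_eq_iff hfk ρh.finrank_eq]
      exact ⟨by rw [t1, t4, hsplit ℓ hℓ hℓN hℓS hdvd], t2.symm⟩
    have hp := ((Gal.charpoly_eq_iff hfk ρh.finrank_eq _ _).1
      (Gal.charpoly_pow_eq_aux hfk ρh.finrank_eq _ _ hs2 i)).1
    rw [← map_pow, ← map_pow, ← e2, tauLin_apply, ← e1, ← tauLin_apply] at hp
    exact hp
  obtain ⟨σe, htrσ, -, hK'⟩ :=
    exists_conj_eqOn hΔ ι ρh (galD ζ) (hasTraceBasis_galD hζ hΔ ι hsurj) htrK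
  let E : Subgroup GQ := σe.eqLocus (tauLin hΔ ι)
  have hK : ∀ σ ∈ galD ζ, σ ∈ E := hK'
  -- a scalar everywhere
  have hscal : ∀ c : GQ, ∃ s : k, σe c = s • tauLin hΔ ι c := by
    intro c
    set X := tauLin hΔ ι c⁻¹ * σe c with hX
    have hcomm : ∀ σ ∈ galD ζ, X * tauLin hΔ ι σ = tauLin hΔ ι σ * X := by
      intro σ hσ
      have h1 : σe (c * σ * c⁻¹) = tauLin hΔ ι (c * σ * c⁻¹) := hK _ (conj_mem_galD hζ c hσ)
      have h0 : σe σ = tauLin hΔ ι σ := hK σ hσ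
      simp only [map_mul] at h1
      have h2 := congrArg (fun z => tauLin hΔ ι c⁻¹ * (z * σe c)) h1
      simp only [mul_assoc, ← map_mul σe c⁻¹ c, inv_mul_cancel, map_one, mul_one, h0] at h2
      rw [hX, mul_assoc, h2, ← mul_assoc, ← map_mul, inv_mul_cancel, map_one, one_mul]
    clear_value X
    obtain ⟨⟨su, hsu, hρu⟩, sl, hsl, hρl⟩ := exists_galD_rho_unip hζ hΔ hsurj
    obtain ⟨s, hXs⟩ := exists_eq_smul_one hΔ ι X hρu hρl (hcomm su hsu)
      (hcomm sl hsl)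
    refine ⟨s, ?_⟩
    calc σe c = tauLin hΔ ι c * X := by
          rw [hX, ← mul_assoc, ← map_mul, mul_inv_cancel, map_one, one_mul]
      _ = s • tauLin hΔ ι c := by rw [hXs, mul_smul_comm, mul_one]
  -- inertia at the primes of `D`
  have hI : ∀ q : ℕ, q.Prime → q ∣ D → ∀ A : ValuationSubring Qbar, A.LiesOverPrime q →
      ∀ σ ∈ A.inertiaSubgroupIn ℚ, σ ∈ E := by
    intro q hq hqD A hA σ hσ
    have hq3 : q ≠ 3 := fun h => h3D (h ▸ hqD)
    have : Fact (Nat.Prime 3) := ⟨Nat.prime_three⟩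
    obtain ⟨s, hs⟩ := hscal σ
    have h1 := congrArg (LinearMap.trace k _) hs
    rw [htrσ, trace_inertia_two hg hq hq3 (hDN q hq hqD).1 (hDN q hq hqD).2 φ ρh hatt hA hσ,
      map_smul, trace_tauLin, trace_of_cube (m := ((rho hΔ σ : G48) : M2)) (by
        rw [← Units.val_mul, ← Units.val_mul, ← pow_two, ← pow_succ,
          rho_inertia_cube hΔ hW hq hq3 hA hσ, Units.val_one]), map_ofNat, smul_eq_mul] at h1
    have h2 : (2 : k) ≠ 0 := by
      have h := (CharP.cast_eq_zero_iff k 3 2).not.2 (by decide)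
      exact_mod_cast h
    have hs1 : s = 1 := mul_right_cancel₀ h2 (by rw [← h1, one_mul])
    show σe σ = tauLin hΔ ι σ
    rw [hs, hs1, one_smul]
  -- everything
  have hall : ∀ c : GQ, c ∈ E := mem_of_inertia hζ hD E hK hI
  intro ℓ hℓ hℓN hℓ3 hgood
  obtain ⟨A, σ, hA, hσ⟩ := Gal.exists_liesOverPrime_isFrobeniusAt hℓ
  obtain ⟨t1, -, t4⟩ := hFrob ℓ hℓ hℓN hℓ3 hgood A hA σ hσ
  rw [← t1, ← t4, ← htrσ, show σe σ = tauLin hΔ ι σ from hall σ]

/-- Eigenvalues of an eigenform at good primes are algebraic integers. -/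
theorem exists_integral_eigenvalues {N : ℕ} [NeZero N] {g : CuspForm (Gamma0 N) 2}
    (hg : g.IsNormalizedEigenform) :
    ∃ a : ℕ → integralClosure ℤ ℂ,
      ∀ ℓ : ℕ, ℓ.Prime → ¬ ℓ ∣ N → (a ℓ : ℂ) = qCoeff ⇑g ℓ := by
  classical
  have : Fact (Nat.Prime 3) := ⟨Nat.prime_three⟩
  have hNS : ∀ r, r.Prime → r ∣ N → r ∈ (↑N.primeFactors : Set ℕ) := fun r hr h =>
    Nat.mem_primeFactors.mpr ⟨hr, h, NeZero.ne N⟩
  obtain ⟨χ, hχ⟩ := Attach.exists_eigenChar hg hNS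
  let M := (Attach.nonempty_jacobianInputs N 3).some.model
  have hint : ∀ t : CuspForm.heckeAlgebra N 2 (↑N.primeFactors : Set ℕ), IsIntegral ℤ t :=
    Attach.isIntegral_of_faithful (M.hecke.comp (Attach.toAnemic hNS))
      (M.hecke_injective.comp (Attach.toAnemic_injective hNS))
  let χ' : CuspForm.heckeAlgebra N 2 (↑N.primeFactors : Set ℕ) →+* integralClosure ℤ ℂ :=
    χ.codRestrict (integralClosure ℤ ℂ).toSubring fun t => (hint t).map χ.toIntAlgHom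
  refine ⟨fun ℓ => if h : ℓ.Prime ∧ ¬ ℓ ∣ N then χ' (CuspForm.heckeAlgebra.T h.1 h.2
    (fun hm => h.2 (Nat.dvd_of_mem_primeFactors hm))) else 0, fun ℓ hℓ hℓN => ?_⟩
  simp only [dif_pos (And.intro hℓ hℓN)]
  exact hχ ℓ hℓ hℓN _

/-- **Residual modularity from the system at `ℓ ≡ 1 (mod D)`.** -/
theorem isResiduallyModular_of_system (hW : W.IsSemistableModel)
    (hsurj : Function.Surjective (rho hΔ)) {N : ℕ} [NeZero N]
    {D : ℕ} (hD : Squarefree D) (h3D : ¬ 3 ∣ D)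
    (hDN : ∀ q : ℕ, q.Prime → q ∣ D → q ∣ N ∧ ¬ q ^ 2 ∣ N) (S : Finset ℕ)
    (h : RemoveThree.ResidualSystem
      (fun ℓ => ℓ.Prime ∧ ¬ ℓ ∣ N ∧ ℓ ∉ S ∧ (D : ℤ) ∣ (ℓ : ℤ) - 1) (fun ℓ => W.apOfModel ℓ) N) :
    W.IsResiduallyModularOfLevel 3 N := by
  obtain ⟨g, 𝔪, hg, h𝔪, h3, hc⟩ := h
  have := h𝔪
  obtain ⟨a, ha⟩ := exists_integral_eigenvalues hg
  let : Field (integralClosure ℤ ℂ ⧸ 𝔪) := Ideal.Quotient.field 𝔪
  have : CharP (integralClosure ℤ ℂ ⧸ 𝔪) 3 :=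
    (CharP.charP_iff_prime_eq_zero Nat.prime_three).2 (by
      rw [← map_natCast (Ideal.Quotient.mk 𝔪)]
      exact Ideal.Quotient.eq_zero_iff_mem.2 h3)
  have hiff : ∀ (x : integralClosure ℤ ℂ) (z : ℤ),
      Ideal.Quotient.mk 𝔪 x = (z : integralClosure ℤ ℂ ⧸ 𝔪) ↔
        x - (z : integralClosure ℤ ℂ) ∈ 𝔪 := fun x z => by
    rw [← map_intCast (Ideal.Quotient.mk 𝔪), Ideal.Quotient.eq]
  refine ⟨g, 𝔪, hg, h𝔪, h3, fun ℓ hℓ hgood hℓN hℓ3 => ⟨a ℓ, ha ℓ hℓ hℓN, (hiff _ _).1 ?_⟩⟩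
  refine congr_of_congr_one_mod hΔ (Ideal.Quotient.mk 𝔪) hW hsurj hg a ha hD h3D hDN S
    (fun r hr hrN hrS hrD => (hiff _ _).2 ?_) ℓ hℓ hℓN hℓ3 hgood
  obtain ⟨c, hcc, hcm⟩ := hc r ⟨hr, hrN, hrS, hrD⟩
  obtain rfl : c = a r := Subtype.ext (hcc.trans (ha r hr hrN).symm)
  exact hcm

end Fermat.Agent.ResidualThree.SquarefreeLevel
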