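import Fermat.Agent.RemoveThree.NoTwist
import Fermat.Agent.ResidualThree.SquarefreeLevel.Eta
import Fermat.Agent.ResidualThree.WeightTwo.Main

/-!
# A squarefree level from a class of level `3^(e+1) r D`

A class with the eigensystem of the curve modulo `3` at level `3^(e+1) r D` yields residual
modularity at a squarefree level, by removing the surplus power of `3` and the auxiliary factor.
-/

noncomputable section

open CongruenceSubgroup ModularFormClass WeierstrassCurve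
open scoped MatrixGroups

namespace Fermat.Agent.ResidualThree.SquarefreeLevel

open Fermat.Agent.Ihara (clH clT clT_val)

theorem not_sq_dvd_level {R e q : ℕ} (hR : Squarefree R) (hq : q.Prime) (hq3 : q ≠ 3) :
    ¬ q ^ 2 ∣ 3 ^ (e + 1) * R := fun hd => by
  have h : q ^ 2 ∣ R := (Nat.Coprime.dvd_mul_left (Nat.Coprime.pow _ _
    ((Nat.coprime_primes hq Nat.prime_three).2 hq3))).1 hd
  exact hq.not_isUnit (hR q (pow_two q ▸ h))

/-- A class of level `3^(e+1) r D` with the system of the curve gives a squarefree residual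
level. -/
theorem exists_squarefree_of_class {W : WeierstrassCurve ℤ} (hΔ : W.Δ ≠ 0)
    (hW : W.IsSemistableModel) (h3 : W.ModRepIsIrreducible 3) {D e r : ℕ} (hD : Squarefree D)
    (hD3 : ¬ 3 ∣ D) (hr : Squarefree r) (hr3 : ¬ 3 ∣ r) (hrD : Nat.Coprime r D) (h2 : 2 ∣ r * D)
    (hB : e ≠ 0 → Glue.NoInertiaFixedThree W) [NeZero (3 ^ (e + 1) * r * D)]
    {x : clH (ZMod 3) (3 ^ (e + 1) * r * D)} (hx0 : x ≠ 0)
    (hx : ∀ (ℓ : ℕ) [NeZero ℓ], ℓ.Prime → ¬ ℓ ∣ 3 ^ (e + 1) * r * D → W.IsGoodPrimeFor ℓ →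
      (D : ℤ) ∣ (ℓ : ℤ) - 1 →
      clT (ZMod 3) (3 ^ (e + 1) * r * D) ℓ x = (W.apOfModel ℓ : ZMod 3) • x) :
    ∃ M₀ : ℕ, Squarefree M₀ ∧ W.IsResiduallyModularOfLevel 3 M₀ := by
  classical
  have hsurj := rho_surjective hΔ hW h3
  have hRsq : Squarefree (r * D) := Nat.squarefree_mul_iff.2 ⟨hrD, hr, hD⟩
  have hR3 : ¬ 3 ∣ r * D := fun h => (Nat.prime_three.dvd_mul.1 h).elim hr3 hD3
  have hN : 3 ^ (e + 1) * r * D = 3 ^ (e + 1) * (r * D) := mul_assoc _ _ _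
  have hNsq : ∀ q : ℕ, q.Prime → q ≠ 3 → ¬ q ^ 2 ∣ 3 ^ (e + 1) * r * D := fun q hq hq3 =>
    hN ▸ not_sq_dvd_level hRsq hq hq3
  have hres : W.IsResiduallyModularOfLevel 3 (3 ^ (e + 1) * r * D) := by
    refine isResiduallyModular_of_system hΔ hW hsurj hD hD3
      (fun q hq hqD => ⟨dvd_mul_of_dvd_right hqD _, hNsq q hq fun h => hD3 (h ▸ hqD)⟩)
      W.Δ.natAbs.primeFactors ?_
    refine RemoveThree.residualSystem_of_eigenClass
      (x := (x : Additive (Gamma0 (3 ^ (e + 1) * r * D)) →+ ZMod 3))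
      (fun ℓ hℓ => ⟨hℓ.1, hℓ.2.1⟩) _ ⟨fun h => hx0 (Subtype.ext h), x.2, fun ℓ hℓ _ => ?_⟩
    obtain ⟨hp, hpN, hpS, hpD⟩ := hℓ
    have hgood : W.IsGoodPrimeFor ℓ := fun hd => hpS (Nat.mem_primeFactors.2
      ⟨hp, Int.natCast_dvd.1 hd, Int.natAbs_ne_zero.2 hΔ⟩)
    exact congrArg Subtype.val (hx ℓ hp hpN hgood hpD)
  by_cases he : e = 0
  · subst he
    exact ⟨_, hN ▸ Nat.squarefree_mul_iff.2
      ⟨by simpa using (Nat.Prime.coprime_iff_not_dvd Nat.prime_three).2 hR3,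
        (by simpa using Nat.prime_three.squarefree), hRsq⟩, hres⟩
  · obtain ⟨N', hN'0, -, hdvd, h9, -, hr' | hr'⟩ :=
      RemoveThree.exists_level_or_twist hΔ hW h3 (NeZero.pos _) hres
        (fun q hq hq3 hd => hNsq q hq hq3 ((pow_dvd_pow q (by norm_num)).trans hd))
        (by rw [hN]; exact dvd_mul_of_dvd_left (pow_dvd_pow 3 (by omega)) _)
    · refine ⟨N', Nat.squarefree_iff_prime_squarefree.2 fun q hq hd => ?_, hr'⟩
      rw [← pow_two] at hd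
      by_cases hq3 : q = 3
      · exact h9 (hq3 ▸ hd)
      · exact hNsq q hq hq3 (hd.trans (hdvd (by rw [hN]; exact h2.mul_left _)))
    · exact absurd hr' (RemoveThree.noTwistAtThree W hΔ hW h3 (hB he) N' hN'0 h9)

/-- An auxiliary prime `≡ 1 (mod 3 M D)` with trace `≠ 2`. -/
theorem exists_auxiliary_prime {W : WeierstrassCurve ℤ} (hΔ : W.Δ ≠ 0) (hW : W.IsSemistableModel)
    (h3 : W.ModRepIsIrreducible 3) {M D : ℕ} (hM : 0 < M) (hD : 0 < D) :
    ∃ ℓ : ℕ, ℓ.Prime ∧ ¬ ℓ ∣ M * D ∧ W.IsGoodPrimeFor ℓ ∧ (D : ℤ) ∣ (ℓ : ℤ) - 1 ∧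
      ((3 * M * D : ℕ) : ℤ) ∣ (ℓ : ℤ) - 1 ∧ (W.apOfModel ℓ : ZMod 3) ≠ 2 := by
  obtain ⟨ℓ, hℓ, hS, hgood, hd, ha⟩ := RemoveThree.exists_prime_one_mod hΔ hW h3
    (n := 3 * M * D) (by positivity) (M * D).primeFactors
  exact ⟨ℓ, hℓ, fun h => hS (Nat.mem_primeFactors.2 ⟨hℓ, h, by positivity⟩), hgood,
    (Int.natCast_dvd_natCast.2 (dvd_mul_left D (3 * M))).trans hd, hd, ha⟩

/-- Without unramifiedness at `3` there is no inertia-fixed torsion. -/
theorem noInertiaFixed_of_three_dvd {W : WeierstrassCurve ℤ} (hΔ : W.Δ ≠ 0)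
    (hW : W.IsSemistableModel) {n₀ : ℕ}
    (hunr : IsUnramifiedThreeOverK (rho hΔ) → ¬ 3 ∣ n₀) (h : 3 ∣ n₀) :
    Glue.NoInertiaFixedThree W := fun A hA x hx => by
  refine eq_zero_of_not_isCaseA (fun hA' => ?_) A hA x hx
  exact hunr (fun B hB σ hσ hσ1 =>
    rho_inertia_three_of_isCaseA hΔ hW hA' hB hσ (by rw [det_rho, hσ1, Units.val_one])) h

end Fermat.Agent.ResidualThree.SquarefreeLevel
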