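import Fermat.Agent.ResidualThree.SquarefreeLevel.Family

/-!
# The Atkin–Lehner image of a family

For `Q t - D² r y = 1` the matrix `(Q, D y; Q r D, Q t)` normalises `Γ₀(Q r)` and is congruent to
`diag (Q, 1)` modulo `D`; composed with a similitude of factor `Q` it carries families to families.
-/

noncomputable section

open CongruenceSubgroup UpperHalfPlane
open scoped ModularForm MatrixGroups Manifold

namespace Fermat.Agent.ResidualThree.SquarefreeLevel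

/-- The Atkin–Lehner matrix, congruent to `diag (Q, 1)` modulo `D`. -/
def alMat (Q r D : ℕ) (t y : ℤ) : Matrix (Fin 2) (Fin 2) ℤ :=
  !![(Q : ℤ), (D : ℤ) * y; (Q : ℤ) * r * D, (Q : ℤ) * t]

/-- The same matrix after conjugation by `diag (D, 1)`. -/
def alMatOne (Q r D : ℕ) (t y : ℤ) : Matrix (Fin 2) (Fin 2) ℤ :=
  !![(Q : ℤ), y; (Q : ℤ) * r * (D : ℤ) ^ 2, (Q : ℤ) * t]

variable {Q r D : ℕ} {t y : ℤ}

theorem det_alMat (h : (Q : ℤ) * t - (D : ℤ) ^ 2 * r * y = 1) : (alMat Q r D t y).det = Q := by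
  rw [alMat, Matrix.det_fin_two_of]
  linear_combination (Q : ℤ) * h

theorem det_alMatOne (h : (Q : ℤ) * t - (D : ℤ) ^ 2 * r * y = 1) :
    (alMatOne Q r D t y).det = Q := by
  rw [alMatOne, Matrix.det_fin_two_of]
  linear_combination (Q : ℤ) * h

theorem alMat_mul_dMat : alMat Q r D t y * dMat D = dMat D * alMatOne Q r D t y := by
  ext i j
  fin_cases i <;> fin_cases j <;> simp [alMat, alMatOne, dMat, Matrix.mul_apply, Fin.sum_univ_two]
    <;> ring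

theorem isALMatrix_alMatOne (h : (Q : ℤ) * t - (D : ℤ) ^ 2 * r * y = 1) {N : ℕ}
    (hN : N = Q * (r * D ^ 2)) : IsALMatrix Q N (alMatOne Q r D t y) := by
  refine ⟨det_alMatOne h, ⟨1, ?_⟩, ⟨1, ?_⟩, ⟨t, ?_⟩⟩ <;> simp [alMatOne, hN]
  ring

theorem congMod_alMat (h : (Q : ℤ) * t - (D : ℤ) ^ 2 * r * y = 1) :
    CongMod D (alMat Q r D t y) !![(Q : ℤ), 0; 0, 1] := by
  have h1 := congrArg (fun x : ℤ => (x : ZMod D)) h
  push_cast at h1
  refine Matrix.ext fun i j => ?_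
  fin_cases i <;> fin_cases j <;> simp [alMat]
  linear_combination h1 + (D : ZMod D) * r * y * ZMod.natCast_self D

theorem CongMod.mul {A A' B B' : Matrix (Fin 2) (Fin 2) ℤ} (h : CongMod D A A')
    (h' : CongMod D B B') : CongMod D (A * B) (A' * B') := by
  have e : ∀ X Y : Matrix (Fin 2) (Fin 2) ℤ,
      (X * Y).map (fun x : ℤ => (x : ZMod D)) =
        X.map (fun x : ℤ => (x : ZMod D)) * Y.map fun x : ℤ => (x : ZMod D) := fun X Y => by
    simpa [RingHom.mapMatrix_apply] using map_mul (Int.castRingHom (ZMod D)).mapMatrix X Y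
  rw [CongMod, e, e]
  exact congrArg₂ (· * ·) h h'

/-- `Γ₀(Q r)` is normalised, the character is preserved. -/
theorem exists_alMat_conj (h : (Q : ℤ) * t - (D : ℤ) ^ 2 * r * y = 1) (hQ : 3 ∣ Q) (hQ0 : Q ≠ 0)
    {γ : SL(2, ℤ)} (hγ : γ ∈ Gamma0 (Q * r)) :
    ∃ γ' : SL(2, ℤ), γ' ∈ Gamma0 (Q * r) ∧ chiC (γ' 1 1) = chiC (γ 1 1) ∧
      (γ' : Matrix (Fin 2) (Fin 2) ℤ) * alMat Q r D t y =
        alMat Q r D t y * (γ : Matrix (Fin 2) (Fin 2) ℤ) := by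
  obtain ⟨c, hc⟩ := (ZMod.intCast_zmod_eq_zero_iff_dvd _ _).1 (Gamma0_mem.1 hγ)
  push_cast at hc
  have hdet := γ.2
  rw [Matrix.det_fin_two, hc] at hdet
  set G : Matrix (Fin 2) (Fin 2) ℤ :=
    !![t * ((Q : ℤ) * γ 0 0 + D * y * ((Q : ℤ) * r * c)) -
      r * D * ((Q : ℤ) * γ 0 1 + D * y * γ 1 1),
      -(D : ℤ) * y * γ 0 0 - D ^ 2 * y ^ 2 * r * c + Q * γ 0 1 + D * y * γ 1 1;
      (Q : ℤ) * r * (t * D * γ 0 0 + Q * t ^ 2 * c - r * D ^ 2 * γ 0 1 - D * t * γ 1 1),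
      -(r : ℤ) * D ^ 2 * y * γ 0 0 - D * y * t * (Q * r * c) + Q * r * D * γ 0 1 + Q * t * γ 1 1]
    with hG
  have hmul : G * alMat Q r D t y = alMat Q r D t y * (γ : Matrix (Fin 2) (Fin 2) ℤ) := by
    ext i j
    fin_cases i <;> fin_cases j <;>
      simp [hG, alMat, Matrix.mul_apply, Fin.sum_univ_two, hc]
    · linear_combination ((Q : ℤ) * γ 0 0 + D * y * ((Q : ℤ) * r * c)) * h
    · linear_combination ((Q : ℤ) * γ 0 1 + D * y * γ 1 1) * h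
    · linear_combination ((Q : ℤ) * r * D * γ 0 0 + (Q : ℤ) * t * ((Q : ℤ) * r * c)) * h
    · linear_combination ((Q : ℤ) * r * D * γ 0 1 + (Q : ℤ) * t * γ 1 1) * h
  have hGd : G.det = 1 := by
    have := congrArg Matrix.det hmul
    rw [Matrix.det_mul, Matrix.det_mul, γ.2, det_alMat h, mul_one] at this
    exact mul_right_cancel₀ (Int.natCast_ne_zero.2 hQ0) (this.trans (one_mul _).symm)
  obtain ⟨g, hg⟩ : ∃ g : SL(2, ℤ), (g : Matrix (Fin 2) (Fin 2) ℤ) = G := ⟨⟨G, hGd⟩, rfl⟩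
  refine ⟨g, ?_, ?_, by rw [hg]; exact hmul⟩
  · rw [Gamma0_mem, ZMod.intCast_zmod_eq_zero_iff_dvd, hg]
    push_cast
    simp [hG]
  · have hQ3 : (3 : ℤ) ∣ (Q : ℤ) := by exact_mod_cast hQ
    obtain ⟨z, hz⟩ := hQ3
    have e1 : chiC (G 1 1) = chiC (γ 0 0) := by
      refine chiC_congr ⟨-z * t * γ 0 0 + z * (-D * y * t * r * c + r * D * γ 0 1 + t * γ 1 1), ?_⟩
      simp [hG]
      rw [hz] at h ⊢
      linear_combination γ 0 0 * h
    have e2 : chiC (γ 0 0) * chiC (γ 1 1) = 1 := by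
      rw [← chiC_mul, ← chiC_one]
      refine chiC_congr ⟨γ 0 1 * z * r * c, ?_⟩
      rw [hz] at hdet
      linear_combination hdet
    have h3 : ¬ (3 : ℤ) ∣ γ 1 1 := fun ⟨w, hw⟩ => by
      rw [hz, hw] at hdet
      have : (3 : ℤ) ∣ 1 := ⟨γ 0 0 * w - γ 0 1 * z * r * c, by linear_combination -hdet⟩
      norm_num at this
    rw [hg, e1]
    linear_combination chiC (γ 1 1) * e2 - chiC (γ 0 0) * chiC_mul_self h3

variable {V : Type} {W : Representation ℂ SL(2, ℤ) (V → ℂ)} {ι : Type}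
  {act : ι → Module.End ℂ (V → ℂ)} {χ : ι → ℂ}

/-- The Atkin–Lehner image of a family, through the similitude `σ`. -/
def twinFam (w : Matrix (Fin 2) (Fin 2) ℤ) (hw : 0 < w.det) (σ : Module.End ℂ (V → ℂ))
    (h : (V → ℂ) →ₗ[ℂ] (ℍ → ℂ)) : (V → ℂ) →ₗ[ℂ] (ℍ → ℂ) where
  toFun φ := h (σ φ) ∣[(1 : ℤ)] intGL w
  map_add' a b := by rw [map_add, map_add, SlashAction.add_slash]
  map_smul' c a := by rw [map_smul, map_smul, smul_slash_intGL hw, RingHom.id_apply]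

theorem IsLiftFam.twinFam (hh : (V → ℂ) →ₗ[ℂ] (ℍ → ℂ)) (hfam : IsLiftFam (Q * r) W act χ hh)
    (h : (Q : ℤ) * t - (D : ℤ) ^ 2 * r * y = 1) (hQ : 3 ∣ Q) (hQ0 : Q ≠ 0)
    (σ : Module.End ℂ (V → ℂ))
    (hσ : ∀ γ γ' : SL(2, ℤ),
      CongMod D ((γ' : Matrix (Fin 2) (Fin 2) ℤ) * !![(Q : ℤ), 0; 0, 1])
        (!![(Q : ℤ), 0; 0, 1] * (γ : Matrix (Fin 2) (Fin 2) ℤ)) →
      ∀ φ, σ (W γ φ) = W γ' (σ φ))
    (hact : ∀ u, ∃ v, χ v = χ u ∧ ∀ φ, σ (act u φ) = act v (σ φ))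
    (hw : 0 < (alMat Q r D t y).det) :
    IsLiftFam (Q * r) W act χ (SquarefreeLevel.twinFam (alMat Q r D t y) hw σ hh) where
  mdiff φ := (hfam.mdiff _).slash 1 _
  zero φ c hc := isZeroAt_slash_intGL (hfam.zero _) _ hc
  law γ hγ φ := by
    obtain ⟨γ', hγ', hχ, hmul⟩ := exists_alMat_conj h hQ hQ0 hγ
    have hc : CongMod D ((γ' : Matrix (Fin 2) (Fin 2) ℤ) * !![(Q : ℤ), 0; 0, 1])
        (!![(Q : ℤ), 0; 0, 1] * (γ : Matrix (Fin 2) (Fin 2) ℤ)) := by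
      have a := CongMod.mul (D := D) (A := (γ' : Matrix (Fin 2) (Fin 2) ℤ)) rfl (congMod_alMat h)
      have b := CongMod.mul (congMod_alMat h)
        (show CongMod D (γ : Matrix (Fin 2) (Fin 2) ℤ) γ from rfl)
      rw [hmul] at a
      exact a.symm.trans b
    have hinv : σ (W γ⁻¹ φ) = W γ'⁻¹ (σ φ) := by
      have e := hσ γ γ' hc (W γ⁻¹ φ)
      rw [← Module.End.mul_apply (W γ) (W γ⁻¹), ← map_mul, mul_inv_cancel, map_one,
        Module.End.one_apply] at e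
      rw [e, ← Module.End.mul_apply (W γ'⁻¹) (W γ'), ← map_mul, inv_mul_cancel, map_one,
        Module.End.one_apply]
    show (hh (σ φ) ∣[(1 : ℤ)] intGL (alMat Q r D t y)) ∣[(1 : ℤ)] γ =
      chiC (γ 1 1) • (hh (σ (W γ⁻¹ φ)) ∣[(1 : ℤ)] intGL (alMat Q r D t y))
    have hl := hfam.law γ' hγ' (σ φ)
    rw [ModularForm.SL_slash, ← intGL_coe_SL] at hl
    rw [ModularForm.SL_slash, ← intGL_coe_SL, ← SlashAction.slash_mul,
      ← intGL_mul hw.ne' (by rw [γ.2]; exact one_ne_zero), ← hmul,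
      intGL_mul (by rw [γ'.2]; exact one_ne_zero) hw.ne', SlashAction.slash_mul, hl,
      smul_slash_intGL hw, hinv, hχ]
  inv u φ := by
    obtain ⟨v, hv, hv'⟩ := hact u
    show hh (σ (act u φ)) ∣[(1 : ℤ)] intGL (alMat Q r D t y) =
      χ u • (hh (σ φ) ∣[(1 : ℤ)] intGL (alMat Q r D t y))
    rw [hv', hfam.inv, smul_slash_intGL hw, hv]

/-- In the conjugated frame the image is a classical Atkin–Lehner image. -/
theorem twinFam_slash_dMat (hD : D ≠ 0) (h : (Q : ℤ) * t - (D : ℤ) ^ 2 * r * y = 1) (hQ0 : Q ≠ 0)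
    (hw : 0 < (alMat Q r D t y).det) (σ : Module.End ℂ (V → ℂ))
    (hh : (V → ℂ) →ₗ[ℂ] (ℍ → ℂ)) (ψ : V → ℂ) :
    SquarefreeLevel.twinFam (alMat Q r D t y) hw σ hh ψ ∣[(1 : ℤ)] intGL (dMat D) =
      (hh (σ ψ) ∣[(1 : ℤ)] intGL (dMat D)) ∣[(1 : ℤ)] intGL (alMatOne Q r D t y) := by
  have hd : (dMat D).det ≠ 0 := by rw [det_dMat]; exact_mod_cast hD
  show (hh (σ ψ) ∣[(1 : ℤ)] intGL (alMat Q r D t y)) ∣[(1 : ℤ)] intGL (dMat D) = _
  rw [← SlashAction.slash_mul, ← SlashAction.slash_mul, ← intGL_mul hw.ne' hd, alMat_mul_dMat,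
    intGL_mul hd (by rw [det_alMatOne h]; exact_mod_cast hQ0)]

end Fermat.Agent.ResidualThree.SquarefreeLevel
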