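import Fermat.Agent.Raising.SquareRemoval.Weil.Glob
import Fermat.Agent.ResidualThree.SquarefreeLevel.Twin

/-!
# Similitudes of the hermitian forms intertwine the Weil representation with its conjugates

A similitude `diag (ξ, 1)` carries one Weil representation modulo `D` to its conjugate and
commutes with the lower triangular action; it is used to form the Atkin–Lehner image of a family.
-/

noncomputable section

open scoped MatrixGroups
open Fermat.Agent.Raising.SquareRemoval CongruenceSubgroup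

namespace Fermat.Agent.ResidualThree.SquarefreeLevel

theorem lowAct_lowAct {R : Type} [CommRing R] (x r y x' r' y' : EisQ R) (v : Vd R) :
    lowAct x r y (lowAct x' r' y' v) = lowAct (x * x') (r * x' + y * r') (y * y') v := by
  refine Prod.ext ?_ (Prod.ext (Prod.ext ?_ ?_) ?_) <;>
    simp [lowAct, midE, trE, QuadraticAlgebra.norm_def] <;> ring

theorem lowAct_one {R : Type} [CommRing R] (v : Vd R) : lowAct (1 : EisQ R) 0 1 v = v := by
  refine Prod.ext ?_ (Prod.ext (Prod.ext ?_ ?_) ?_) <;> simp [lowAct, midE, trE]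

/-- The similitude `diag (ξ, 1)`. -/
def simAct {R : Type} [CommRing R] (ξ : EisQ R) (v : Vd R) : Vd R := lowAct ξ 0 1 v

theorem mapVd_simAct {R S : Type} [CommRing R] [CommRing S] (f : R →+* S) (ξ : EisQ R) (v : Vd R) :
    mapVd f (simAct ξ v) = simAct (mapE f ξ) (mapVd f v) := by
  rw [simAct, mapVd_lowAct, mapE_one]
  congr 1
  ext <;> simp [mapE]

theorem simAct_bijective {R : Type} [CommRing R] {ξ η : EisQ R} (h : ξ * η = 1) :
    Function.Bijective (simAct ξ) := by
  have h' : η * ξ = 1 := by rw [mul_comm, h]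
  refine Function.bijective_iff_has_inverse.mpr ⟨simAct η, fun v => ?_, fun v => ?_⟩ <;>
    simp [simAct, lowAct_lowAct, h, h', lowAct_one]

theorem simAct_Q {n : ℕ} (ξ : EisQ (ZMod n)) (v : Vd (ZMod n)) :
    (vdForm n).Q (simAct ξ v) = ξ.norm * (vdForm n).Q v := by
  simp [simAct, vdForm, lowAct, midE, trE, QuadraticAlgebra.norm_def, QuadraticAlgebra.re_one,
    QuadraticAlgebra.im_one]
  ring

theorem simAct_smul {n : ℕ} (ξ : EisQ (ZMod n)) (t : ZMod n) (v : Vd (ZMod n)) :
    simAct ξ (t • v) = t • simAct ξ v := VdChar.lowAct_smul n ξ 0 1 t v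

/-- The kernel at a prime under a similitude. -/
theorem kernel_simAct {p : ℕ} [Fact p.Prime] {R : Type} [CommRing R]
    (E : WeilData p (Vd (ZMod p)) R) (hE : E.toQuadData = vdForm p) {ξ η : EisQ (ZMod p)}
    (h : ξ * η = 1) {g g' : SL(2, ZMod p)} (h00 : g' 0 0 = g 0 0)
    (h01 : g' 0 1 = ξ.norm * g 0 1) (h10 : ξ.norm * g' 1 0 = g 1 0) (h11 : g' 1 1 = g 1 1)
    (z w : Vd (ZMod p)) : E.kernel g' z w = E.kernel g (simAct ξ z) (simAct ξ w) := by
  have hc : ξ.norm ≠ 0 := left_ne_zero_of_mul_eq_one (by rw [← map_mul, h, map_one] :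
    ξ.norm * η.norm = 1)
  have hQ : ∀ v, E.Q (simAct ξ v) = ξ.norm * E.Q v := fun v => by rw [hE]; exact simAct_Q ξ v
  have hB : E.B (simAct ξ z) (simAct ξ w) = ξ.norm * E.B z w := by
    have h1 := E.toQuadData.Q_add (simAct ξ z) (simAct ξ w)
    have hadd : simAct ξ z + simAct ξ w = simAct ξ (z + w) :=
      (VdChar.lowAct_add p ξ 0 1 z w).symm
    rw [hadd, hQ, hQ, hQ, E.toQuadData.Q_add] at h1
    linear_combination -h1
  simp only [WeilData.kernel, hQ, hB, ← simAct_smul, (simAct_bijective h).1.eq_iff, h00, h01, h11,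
    ← h10, mul_eq_zero, hc, false_or, mul_inv]
  by_cases h0 : g' 1 0 = 0
  · rw [if_pos h0, if_pos h0]
    exact if_congr Iff.rfl (congrArg E.ψ (by ring)) rfl
  · rw [if_neg h0, if_neg h0]
    congr 2
    field_simp

section Intertwine

variable {D : ℕ} [NeZero D] {R : Type} [CommRing R] [IsDomain R] (c : VdChar D R)

/-- **Intertwining.** -/
theorem rep_comp_sim {ξ η : EisQ (ZMod D)} (h : ξ * η = 1) {m : ℤ} (hm : (m : ZMod D) = ξ.norm)
    {γ γ' : SL(2, ℤ)}
    (hγ : CongMod D ((γ' : Matrix (Fin 2) (Fin 2) ℤ) * !![m, 0; 0, 1])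
      (!![m, 0; 0, 1] * (γ : Matrix (Fin 2) (Fin 2) ℤ))) (φ : Vd (ZMod D) → R) :
    c.rep γ φ ∘ simAct ξ = c.rep γ' (φ ∘ simAct ξ) := by
  have hp : ∀ p : PIdx D, mapE (toP p) ξ * mapE (toP p) η = 1 := fun p => by
    rw [← mapE_mul, h, mapE_one]
  have hk : ∀ v w, c.ker γ' v w = c.ker γ (simAct ξ v) (simAct ξ w) := fun v w => by
    refine Finset.prod_congr rfl fun p _ => ?_
    rw [mapVd_simAct, mapVd_simAct, WeilData.weilMat_apply, WeilData.weilMat_apply]
    have hn : (m : ZMod p.1) = (mapE (toP p) ξ).norm := by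
      rw [← map_intCast (toP p), hm]
      simp [mapE, QuadraticAlgebra.norm_def, map_neg]
    have e : ∀ i j, ((((γ' : Matrix (Fin 2) (Fin 2) ℤ) * !![m, 0; 0, 1]) i j : ℤ) : ZMod p.1) =
        (((!![m, 0; 0, 1] * (γ : Matrix (Fin 2) (Fin 2) ℤ)) i j : ℤ) : ZMod p.1) := fun i j =>
      by simpa only [map_intCast] using congrArg (toP p) (hγ.apply i j)
    refine kernel_simAct (c.loc p) (c.loc_toQuadData p) (hp p) ?_ ?_ ?_ ?_ _ _ <;>
      simp only [WeilData.redQ_entry, ← hn]
    · have h1 := e 0 0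
      simp [Matrix.mul_apply, Fin.sum_univ_two] at h1
      have hm0 : (m : ZMod p.1) ≠ 0 := hn ▸ left_ne_zero_of_mul_eq_one
        (by rw [← map_mul, hp p, map_one] : (mapE (toP p) ξ).norm * (mapE (toP p) η).norm = 1)
      rw [mul_comm] at h1
      exact mul_left_cancel₀ hm0 h1
    · have h1 := e 0 1
      simpa [Matrix.mul_apply, Fin.sum_univ_two] using h1
    · have h1 := e 1 0
      simp [Matrix.mul_apply, Fin.sum_univ_two] at h1
      rw [mul_comm]
      exact h1
    · have h1 := e 1 1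
      simpa [Matrix.mul_apply, Fin.sum_univ_two] using h1
  funext v
  rw [Function.comp_apply, VdChar.rep_apply, VdChar.rep_apply]
  refine (Fintype.sum_bijective _ (simAct_bijective h) _ _ fun w => ?_).symm
  rw [hk, Function.comp_apply]

end Intertwine

variable {D : ℕ}

/-- The square root of `-3`. -/
def sqrtE (R : Type) [CommRing R] : EisQ R := ⟨1, 2⟩

theorem norm_sqrtE_pow (e : ℕ) : (sqrtE (ZMod D) ^ e).norm = ((3 ^ e : ℕ) : ZMod D) := by
  rw [map_pow]
  have : (sqrtE (ZMod D)).norm = 3 := by simp [sqrtE, QuadraticAlgebra.norm_def]; norm_num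
  simp [this]

theorem exists_inv_sqrtE_pow (hcop : Nat.Coprime 3 D) (e : ℕ) :
    ∃ η, sqrtE (ZMod D) ^ e * η = 1 := by
  have h3 : IsUnit ((3 : ℕ) : ZMod D) := (ZMod.unitOfCoprime 3 hcop).isUnit
  obtain ⟨t, ht⟩ := h3.exists_right_inv
  refine ⟨(algebraMap (ZMod D) (EisQ (ZMod D)) t * star (sqrtE (ZMod D))) ^ e, ?_⟩
  rw [← mul_pow]
  convert one_pow e
  refine QuadraticAlgebra.ext ?_ ?_ <;>
    simp [sqrtE, QuadraticAlgebra.re_one, QuadraticAlgebra.im_one] <;> grind

/-- The invariance in the form of the twin. -/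
theorem lowAct_comp_sim {R : Type} (x r y ξ : EisQ (ZMod D))
    (φ : Vd (ZMod D) → R) :
    (φ ∘ lowAct x r y) ∘ simAct ξ = (φ ∘ simAct ξ) ∘ fun v => lowAct x (r * ξ) y v := by
  funext v
  simp only [Function.comp_apply, simAct, lowAct_lowAct]
  congr 2 <;> ring

end Fermat.Agent.ResidualThree.SquarefreeLevel
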