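import Fermat.Agent.ResidualThree.SquarefreeLevel.Member

/-!
# The weight-two family congruent to the curve at `ℓ ≡ 1 (mod D)`

Multiplication by the hexagonal theta series `≡ 1 (mod 3)` carries a member congruent to the
curve in weight one to a family in weight two without character whose coefficients satisfy the
congruence.
-/

noncomputable section

open CongruenceSubgroup UpperHalfPlane ModularFormClass WeierstrassCurve
open scoped ModularForm MatrixGroups Manifold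

namespace Fermat.Agent.ResidualThree.SquarefreeLevel

/-- An integer prime to `3` is a unit in a valuation ring in which `3` is not. -/
theorem valuation_natCast_eq_one (O : ValuationSubring ℂ) (h3 : O.valuation 3 < 1) {D : ℕ}
    (hD : ¬ 3 ∣ D) : O.valuation (D : ℂ) = 1 := by
  refine le_antisymm ((O.valuation_le_one_iff _).2 (natCast_mem O D)) (le_of_not_gt fun hlt => ?_)
  obtain ⟨u, v, huv⟩ : IsCoprime (D : ℤ) 3 := by
    have := ((Nat.Prime.coprime_iff_not_dvd Nat.prime_three).2 hD).symm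
    exact Int.isCoprime_iff_nat_coprime.2 (by simpa using this)
  have e : (u : ℂ) * (D : ℂ) + (v : ℂ) * 3 = 1 := by exact_mod_cast huv
  have h1 : ∀ (z : ℤ) (x : ℂ), O.valuation x < 1 → O.valuation ((z : ℂ) * x) < 1 := fun z x hx =>
    lt_of_le_of_lt (zsmul_eq_mul x z ▸ valuation_zsmul_le O z x) hx
  have := Valuation.map_add_lt O.valuation (h1 u _ hlt) (h1 v _ h3)
  rw [e, map_one] at this
  exact lt_irrefl _ this

variable {V : Type} {W : Representation ℂ SL(2, ℤ) (V → ℂ)} {ι : Type}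
  {act : ι → Module.End ℂ (V → ℂ)} {χ : ι → ℂ}

/-- **The weight-two family.** A member in weight one congruent to the curve gives, after
multiplication by `hexTheta`, a family in weight two satisfying the congruence. -/
theorem exists_weightTwo {W' : WeierstrassCurve ℤ} {M D N : ℕ} {hD : D ≠ 0} (hD3 : ¬ 3 ∣ D)
    (hM : 3 ∣ M) (h3N : 3 ∣ N) (H : HasMember (W' := W') M D N hD W act χ) :
    ∃ (h : (V → ℂ) →ₗ[ℂ] (ℍ → ℂ)) (φ₀ : V → ℂ) (O : ValuationSubring ℂ),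
      (∀ φ, MDiff (h φ)) ∧
      (∀ φ (c : OnePoint ℝ), IsCusp c 𝒮ℒ → c.IsZeroAt (h φ) (2 : ℤ)) ∧
      (∀ g ∈ Gamma0 M, ∀ φ, h φ ∣[(2 : ℤ)] (g : SL(2, ℤ)) = h (W g⁻¹ φ)) ∧
      (∀ u φ, h (act u φ) = χ u • h φ) ∧
      O.valuation 3 < 1 ∧
      (∀ n, qCoeff (h φ₀ ∣[(2 : ℤ)] intGL (dMat D)) n ∈ O) ∧
      (∃ n, O.valuation (qCoeff (h φ₀ ∣[(2 : ℤ)] intGL (dMat D)) n) = 1) ∧
      ∀ ℓ : ℕ, ℓ.Prime → ¬ ℓ ∣ N → W'.IsGoodPrimeFor ℓ → (D : ℤ) ∣ (ℓ : ℤ) - 1 → ∀ n : ℕ,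
        O.valuation (qCoeff (h φ₀ ∣[(2 : ℤ)] intGL (dMat D)) (ℓ * n) +
          (ℓ : ℂ) * (if ℓ ∣ n then qCoeff (h φ₀ ∣[(2 : ℤ)] intGL (dMat D)) (n / ℓ) else 0) -
          (W'.apOfModel ℓ : ℂ) * qCoeff (h φ₀ ∣[(2 : ℤ)] intGL (dMat D)) n) < 1 := by
  obtain ⟨h, ψ, O, hh, hO, hf, hint, ⟨n₁, hn₁⟩, heig⟩ := H
  simp only [evalOne_apply] at hf hint hn₁ heig
  set b1 : ℕ → ℂ := fun n => qCoeff (h ψ ∣[(1 : ℤ)] intGL (dMat D)) n with hb1
  choose e heO he using qCoeff_mulTheta (h := h) hD ψ hf O hint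
  have h3O : ∀ x ∈ O, O.valuation (3 * x) < 1 := fun x hx => by
    rw [map_mul]
    exact lt_of_le_of_lt (mul_le_of_le_one_right' ((O.valuation_le_one_iff _).2 hx)) hO
  refine ⟨mulTheta h, ψ, O, hh.mdiff_two, hh.zero_two, fun g hg φ => hh.law_two hM hg φ,
    hh.inv_two, hO, fun n => ?_, ⟨n₁, ?_⟩, fun ℓ hℓ hℓN hgood hd n => ?_⟩
  · rw [he]
    exact add_mem (mul_mem (natCast_mem O D) (hint n)) (mul_mem (ofNat_mem O 3) (heO n))
  · rw [he, hn₁, mul_one, Valuation.map_add_eq_of_lt_left _ (by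
      rw [valuation_natCast_eq_one O hO hD3]; exact h3O _ (heO n₁))]
    exact valuation_natCast_eq_one O hO hD3
  · obtain ⟨μ, hμ, hv⟩ := heig ℓ hℓ hℓN hgood hd
    obtain ⟨z, hz⟩ := ResidualThree.chiC_sub_natCast (ℓ := ℓ)
    have hrec : b1 (ℓ * n) + chiC ℓ * (if ℓ ∣ n then b1 (n / ℓ) else 0) = μ * b1 n := by
      have h1 := congrFun (w1Seq_heckeOne hℓ hℓN h3N ⟨_, hf⟩) n
      rw [show (⟨heckeOne ℓ (h ψ ∣[(1 : ℤ)] intGL (dMat D)), IsW1.heckeOne hℓ hℓN h3N hf⟩ :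
        w1Space N) = μ • ⟨_, hf⟩ from Subtype.ext hμ, map_smul] at h1
      exact h1.symm
    have key : qCoeff (mulTheta h ψ ∣[(2 : ℤ)] intGL (dMat D)) (ℓ * n) +
        (ℓ : ℂ) * (if ℓ ∣ n then qCoeff (mulTheta h ψ ∣[(2 : ℤ)] intGL (dMat D)) (n / ℓ) else 0) -
        (W'.apOfModel ℓ : ℂ) * qCoeff (mulTheta h ψ ∣[(2 : ℤ)] intGL (dMat D)) n =
        ((D : ℂ) * b1 n) * (μ - (W'.apOfModel ℓ : ℂ)) +
          3 * (e (ℓ * n) + (if ℓ ∣ n then -(z : ℂ) * (D : ℂ) * b1 (n / ℓ) + (ℓ : ℂ) * e (n / ℓ)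
            else 0) -
            (W'.apOfModel ℓ : ℂ) * e n) := by
      split_ifs at hrec ⊢ with hdiv
      · rw [he, he, he]
        show (D : ℂ) * b1 (ℓ * n) + _ + (ℓ : ℂ) * ((D : ℂ) * b1 (n / ℓ) + _) - _ = _
        linear_combination (D : ℂ) * hrec - (D : ℂ) * b1 (n / ℓ) * hz
      · rw [he, he]
        show (D : ℂ) * b1 (ℓ * n) + _ + _ - _ * ((D : ℂ) * b1 n + _) = _
        linear_combination (D : ℂ) * hrec
    rw [key]
    refine Valuation.map_add_lt _ ?_ (h3O _ ?_)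
    · rw [map_mul]
      exact lt_of_le_of_lt (mul_le_of_le_one_left'
        ((O.valuation_le_one_iff _).2 (mul_mem (natCast_mem O D) (hint n)))) hv
    · refine sub_mem (add_mem (heO _) ?_) (mul_mem (intCast_mem O _) (heO n))
      split_ifs
      · exact add_mem (mul_mem (mul_mem (neg_mem (intCast_mem O z)) (natCast_mem O D)) (hint _))
          (mul_mem (natCast_mem O ℓ) (heO _))
      · exact zero_mem O

end Fermat.Agent.ResidualThree.SquarefreeLevel
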