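import Fermat.Agent.ResidualThree.SquarefreeLevel.Levels
import Fermat.Agent.ResidualThree.SquarefreeLevel.Similitude
import Fermat.Agent.ResidualThree.SquarefreeLevel.WeightTwo
import Fermat.Agent.ResidualThree.WeightTwo.Main

/-!
# The family of tame level attached to a curve and its weight-two member

A tame family is an equivariant space of weight-one functions containing the form of the curve;
it contains a member with congruent coefficients, whence a weight-two family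
(`TameFamily.exists_weightTwo_member`).
-/

noncomputable section

open CongruenceSubgroup UpperHalfPlane ModularFormClass WeierstrassCurve
open scoped ModularForm MatrixGroups Manifold WeierstrassCurve.Affine

namespace Fermat.Agent.ResidualThree.SquarefreeLevel

open Fermat.Agent.Raising.SquareRemoval (Vd VdChar lowAct EisQ)

local notation "GQ" => AlgebraicClosure ℚ ≃ₐ[ℚ] AlgebraicClosure ℚ

/-- The character of a lower triangular matrix. -/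
def lowChi {D : ℕ} (chi : EisQ (ZMod D) → EisQ (ZMod D) → ℂ) (u : LowIdx D) : ℂ :=
  chi u.1.1 u.1.2.2

/-- A family of tame level containing the form of a curve. -/
structure TameFamily (W : WeierstrassCurve ℤ) (D e : ℕ) [NeZero D] where
  /-- the Weil data -/
  vd : VdChar D ℂ
  /-- the character -/
  chi : EisQ (ZMod D) → EisQ (ZMod D) → ℂ
  chi_root : ∀ x y, x * y = 1 → ∃ k : ℕ, chi x y ^ 3 ^ k = 1
  /-- the family -/
  L : (Vd (ZMod D) → ℂ) →ₗ[ℂ] (ℍ → ℂ)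
  fam : IsLiftFam (3 ^ (e + 1)) vd.rep (lowEnd D) (lowChi chi) L
  /-- the member of the curve -/
  psi : Vd (ZMod D) → ℂ
  isW1 : IsW1 (3 ^ (e + 1) * D ^ 2) (L psi ∣[(1 : ℤ)] intGL (dMat D))
  ne_zero : L psi ∣[(1 : ℤ)] intGL (dMat D) ≠ 0
  /-- the finitely many exceptional primes -/
  S : Finset ℕ
  split : ∀ p : ℕ, p.Prime → p ∉ S → p % 3 = 1 → ∃ a : ℤ,
    (∀ n : ℕ, qCoeff (L psi ∣[(1 : ℤ)] intGL (dMat D)) (p * n) +
        (if p ∣ n then qCoeff (L psi ∣[(1 : ℤ)] intGL (dMat D)) (n / p) else 0) =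
      (a : ℂ) * qCoeff (L psi ∣[(1 : ℤ)] intGL (dMat D)) n) ∧
    (a : ZMod 3) = (W.apOfModel p : ZMod 3)

/-- The trace at a split prime. -/
theorem split_trace {W : WeierstrassCurve ℤ} (hΔ : W.Δ ≠ 0) {n₀ : ℕ}
    (d : BianchiDatum (rho hΔ) n₀) {p : ℕ} (hp : p.Prime) (hmod : p % 3 = 1)
    (hS : p ∉ d.S ∪ W.Δ.natAbs.primeFactors) {π : Eis3} (hπ : π.norm = p) :
    (d.c π : ZMod 3) = (W.apOfModel p : ZMod 3) := by
  rw [Finset.mem_union, not_or] at hS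
  obtain ⟨A, σ, hA, hσ⟩ := Gal.exists_liesOverPrime_isFrobeniusAt hp
  have hgood : W.IsGoodPrimeFor p := fun hd => hS.2 (Nat.mem_primeFactors.2
    ⟨hp, Int.natCast_dvd.1 hd, Int.natAbs_ne_zero.2 hΔ⟩)
  rw [(d.c_split p hp hS.1 hmod π hπ A hA σ hσ).1,
    trace_rho_frobenius hΔ hp (by omega) hgood hA hσ]

/-- **The weight-two member of a tame family.** -/
theorem TameFamily.exists_weightTwo_member {W : WeierstrassCurve ℤ} (hΔ : W.Δ ≠ 0)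
    (hsurj : Function.Surjective (rho hΔ)) {D e : ℕ} [NeZero D] (F : TameFamily W D e) {r : ℕ}
    (hr : 0 < r) (hr3 : ¬ 3 ∣ r) :
    ∃ (h : (Vd (ZMod D) → ℂ) →ₗ[ℂ] (ℍ → ℂ)) (φ₀ : Vd (ZMod D) → ℂ) (O : ValuationSubring ℂ),
      (∀ φ, MDiff (h φ)) ∧
      (∀ φ (c : OnePoint ℝ), IsCusp c 𝒮ℒ → c.IsZeroAt (h φ) (2 : ℤ)) ∧
      (∀ g ∈ Gamma0 (3 ^ (e + 1) * r), ∀ φ,
        h φ ∣[(2 : ℤ)] (g : SL(2, ℤ)) = h (F.vd.rep g⁻¹ φ)) ∧
      (∀ x s y : EisQ (ZMod D), x * y = 1 → ∀ φ,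
        h (φ ∘ lowAct x s y) = F.chi x y • h φ) ∧
      O.valuation 3 < 1 ∧
      (∀ n, qCoeff (h φ₀ ∣[(2 : ℤ)] intGL (dMat D)) n ∈ O) ∧
      (∃ n, O.valuation (qCoeff (h φ₀ ∣[(2 : ℤ)] intGL (dMat D)) n) = 1) ∧
      ∀ ℓ : ℕ, ℓ.Prime → ¬ ℓ ∣ 3 ^ (e + 1) * r * D → W.IsGoodPrimeFor ℓ →
        (D : ℤ) ∣ (ℓ : ℤ) - 1 → ∀ n : ℕ,
        O.valuation (qCoeff (h φ₀ ∣[(2 : ℤ)] intGL (dMat D)) (ℓ * n) +
          (ℓ : ℂ) * (if ℓ ∣ n then qCoeff (h φ₀ ∣[(2 : ℤ)] intGL (dMat D)) (n / ℓ) else 0) -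
          (W.apOfModel ℓ : ℂ) * qCoeff (h φ₀ ∣[(2 : ℤ)] intGL (dMat D)) n) < 1 := by
  set Q := 3 ^ (e + 1) with hQdef
  have hD0 : D ≠ 0 := NeZero.ne D
  have hD3 : ¬ 3 ∣ D := (Nat.Prime.coprime_iff_not_dvd Nat.prime_three).1 F.vd.cop
  have hQ0 : Q ≠ 0 := pow_ne_zero _ (by norm_num)
  have : NeZero (Q * (r * D ^ 2)) :=
    ⟨mul_ne_zero hQ0 (mul_ne_zero hr.ne' (pow_ne_zero 2 hD0))⟩
  have hcop : Nat.Coprime Q (r * D ^ 2) :=
    Nat.Coprime.pow_left _ (Nat.Coprime.mul_right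
      ((Nat.Prime.coprime_iff_not_dvd Nat.prime_three).2 hr3)
      (Nat.Coprime.pow_right 2 F.vd.cop))
  obtain ⟨a, b, hab⟩ := Nat.isCoprime_iff_coprime.2 hcop
  have hty : (Q : ℤ) * a - (D : ℤ) ^ 2 * r * (-b) = 1 := by push_cast at hab; linear_combination hab
  set ξ := sqrtE (ZMod D) ^ (e + 1)
  obtain ⟨ζ, hζ⟩ := exists_inv_sqrtE_pow F.vd.cop (e + 1)
  let σ : Module.End ℂ (Vd (ZMod D) → ℂ) := LinearMap.funLeft ℂ ℂ (simAct ξ)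
  have hσ : ∀ γ γ' : SL(2, ℤ),
      CongMod D ((γ' : Matrix (Fin 2) (Fin 2) ℤ) * !![(Q : ℤ), 0; 0, 1])
        (!![(Q : ℤ), 0; 0, 1] * (γ : Matrix (Fin 2) (Fin 2) ℤ)) →
      ∀ φ, σ (F.vd.rep γ φ) = F.vd.rep γ' (σ φ) := fun γ γ' hc φ =>
    rep_comp_sim F.vd hζ (m := (Q : ℤ)) (by rw [norm_sqrtE_pow, ← hQdef]; simp) hc φ
  have hact : ∀ u : LowIdx D, ∃ v : LowIdx D, lowChi F.chi v = lowChi F.chi u ∧
      ∀ φ, σ ((lowEnd D) u φ) = (lowEnd D) v (σ φ) := fun u =>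
    ⟨⟨(u.1.1, u.1.2.1 * ξ, u.1.2.2), u.2⟩, rfl, fun φ =>
      lowAct_comp_sim u.1.1 u.1.2.1 u.1.2.2 ξ φ⟩
  obtain ⟨ψ₁, hψ₁⟩ : ∃ ψ₁, σ ψ₁ = F.psi := LinearMap.funLeft_surjective_of_injective ℂ ℂ _
    (simAct_bijective hζ).1 F.psi
  have hN : Q * D ^ 2 ∣ Q * (r * D ^ 2) := Nat.mul_dvd_mul_left Q (dvd_mul_left _ r)
  have hM : 3 ∣ Q := dvd_pow_self 3 (Nat.succ_ne_zero e)
  have H : HasMember (W' := W) (Q * r) D (Q * (r * D ^ 2)) hD0 F.vd.rep (lowEnd D) (lowChi F.chi) :=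
    exists_member hΔ hsurj hM
      (fun p hp hd => (Nat.prime_dvd_prime_iff_eq hp Nat.prime_three).1 (hp.dvd_of_dvd_pow hd))
      hD0 hty (fun g hg => F.vd.rep_of_mem_Gamma hg) (F.fam.of_dvd (dvd_mul_right Q r)) F.psi
      (isW1_of_dvd hN F.isW1) F.ne_zero F.S F.split σ hσ hact ψ₁ hψ₁
  obtain ⟨h, φ₀, O, h1, h2, h3, h4, h5, h6, h7, h8⟩ :=
    exists_weightTwo hD3 (hM.mul_right r) (hM.mul_right _) H
  refine ⟨h, φ₀, O, h1, h2, h3, fun x s y hxy φ => h4 ⟨(x, s, y), hxy⟩ φ, h5, h6, h7,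
    fun ℓ hℓ hℓN => h8 ℓ hℓ fun hd => hℓN ?_⟩
  rcases hℓ.dvd_mul.1 hd with hd | hd
  · exact (hd.mul_right r).mul_right D
  · rcases hℓ.dvd_mul.1 hd with hd | hd
    · exact (hd.mul_left Q).mul_right D
    · exact (hℓ.dvd_of_dvd_pow hd).mul_left (Q * r)

end Fermat.Agent.ResidualThree.SquarefreeLevel
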