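import Fermat.Agent.ResidualThree.SquarefreeLevel.Tame
import Fermat.Agent.ResidualThree.ThetaLift.TameFamily

/-!
# The tame family of a curve

A tame twist of the datum of a curve gives a tame family (`nonempty_tameFamily`).
-/

noncomputable section

open CongruenceSubgroup UpperHalfPlane ModularFormClass WeierstrassCurve
open scoped ComplexConjugate ModularForm MatrixGroups

namespace Fermat.Agent.ResidualThree.SquarefreeLevel

open Fermat.Agent.Raising.SquareRemoval (Vd VdChar EisQ)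

/-- **A tame twist of the datum of a curve gives a family of tame level.** -/
theorem nonempty_tameFamily {W : WeierstrassCurve ℤ} (hΔ : W.Δ ≠ 0)
    (hsurj : Function.Surjective (rho hΔ)) {n₀ : ℕ} [NeZero n₀]
    {d : BianchiDatum (rho hΔ) n₀} (t : TameTwist d) {e : ℕ} (he : n₀ = 3 ^ e * t.D ^ 2) :
    Nonempty (TameFamily W t.D e) := by
  classical
  obtain ⟨c, χ, L, ψ, hcases, hfam, hW1, hne, hsplit⟩ :=
    exists_tameFamily t he (continuous_rho hΔ) hsurj (det_rho_units hΔ)
  obtain ⟨chi, hchi, hroot⟩ : ∃ chi : EisQ (ZMod t.D) → EisQ (ZMod t.D) → ℂ,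
      χ = lowChi chi ∧ ∀ x y, x * y = 1 → ∃ k : ℕ, chi x y ^ 3 ^ k = 1 := by
    rcases hcases with ⟨-, rfl⟩ | ⟨-, rfl⟩
    · exact ⟨fun x y => conj (chiRes t x) * chiRes t y, rfl,
        fun x y h => exists_lowChar_pow t ⟨(x, 0, y), h⟩⟩
    · refine ⟨fun x y => conj (conj (chiRes t x) * chiRes t y), rfl, fun x y h => ?_⟩
      obtain ⟨k, hk⟩ := exists_lowChar_pow t ⟨(x, 0, y), h⟩
      refine ⟨k, ?_⟩
      rw [lowChar] at hk
      rw [← map_pow, hk, map_one]
  subst hchi
  refine ⟨{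
    vd := c
    chi := chi
    chi_root := hroot
    L := L
    fam := hfam
    psi := ψ
    isW1 := hW1
    ne_zero := hne
    S := d.S ∪ W.Δ.natAbs.primeFactors ∪ (3 * n₀).primeFactors
    split := fun p hp hpS hmod => ?_ }⟩
  obtain ⟨π, hπ⟩ := Eis3.exists_norm_eq hp hmod
  rw [Finset.mem_union, not_or] at hpS
  refine ⟨d.c π, fun n => hsplit p π hp hmod (fun h => hpS.2 (Nat.mem_primeFactors.2
    ⟨hp, h, mul_ne_zero three_ne_zero (NeZero.ne n₀)⟩)) hπ n, ?_⟩
  exact split_trace hΔ d hp hmod hpS.1 hπ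

end Fermat.Agent.ResidualThree.SquarefreeLevel
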