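import Fermat.Agent.ResidualThree.BianchiForm.TwistMain
import Fermat.Agent.ResidualThree.CubicDescent.Transfer
import Fermat.Agent.ResidualThree.SquarefreeLevel.Finish
import Fermat.Agent.ResidualThree.SquarefreeLevel.Tame
import Fermat.Agent.ResidualThree.SquarefreeLevel.TameMember
import Fermat.Agent.ResidualThree.ThetaInduction.Main

/-!
# The tame family of a semistable curve

The descent gives, for a semistable curve irreducible at `3`, a family of weight-one functions of
tame level containing the form of the curve; it is the input of the removal of squares from the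
level.
-/

noncomputable section

open WeierstrassCurve

namespace Fermat.Agent.ResidualThree.SquarefreeLevel

/-- **The tame family of a semistable curve irreducible at `3`.** -/
theorem exists_curve_family {W : WeierstrassCurve ℤ} (hΔ : W.Δ ≠ 0) (hW : W.IsSemistableModel)
    (h3 : W.ModRepIsIrreducible 3) :
    ∃ (D e : ℕ) (_ : NeZero D), Squarefree D ∧ ¬ 3 ∣ D ∧
      (e ≠ 0 → Glue.NoInertiaFixedThree W) ∧ Nonempty (TameFamily W D e) := by
  have hsurj := rho_surjective hΔ hW h3
  obtain ⟨n₀, hn₀, -, hunr, d, ⟨t⟩⟩ := BianchiForm.exists_datum_tameTwist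
    (cubicTransfer_of ThetaInduction.thetaExistence) (rho hΔ) (continuous_rho hΔ) hsurj
      (det_rho_units hΔ)
    (fun q hq hq3 A hA σ hσ => rho_inertia_cube hΔ hW hq hq3 hA hσ)
  obtain ⟨e, he⟩ := t.level
  have : NeZero n₀ := ⟨hn₀.ne'⟩
  refine ⟨t.D, e, ⟨fun h => hn₀.ne' (by rw [he, h]; simp)⟩, t.squarefree_D, t.not_three,
    fun h0 => noInertiaFixed_of_three_dvd hΔ hW hunr ?_, nonempty_tameFamily hΔ hsurj t he⟩
  exact he ▸ dvd_mul_of_dvd_left (dvd_pow_self 3 h0) _

end Fermat.Agent.ResidualThree.SquarefreeLevel
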