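import Fermat.Agent.Glue.Squarefree
import Fermat.Agent.Raising.SquareRemoval.Residual.Level
import Fermat.Agent.ResidualThree.SquarefreeLevel.Curve

/-!
# Residual modularity at `3` at a squarefree level

The tame family of the curve gives a congruent weight-two family, whose class at level
`3^(e+1) r D` (`exists_residual_level`) descends to a squarefree level
(`exists_squarefree_of_class`). This is the residual input at `3` of modularity lifting.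
-/

noncomputable section

open WeierstrassCurve
open Fermat.Agent.Raising.SquareRemoval (exists_residual_level)

namespace Fermat.Agent.ResidualThree.SquarefreeLevel

/-- **A semistable curve irreducible at `3` is residually modular at `3` of squarefree level.** -/
theorem residualThreeSquarefree : Glue.ResidualThreeSquarefree := fun W hΔ hW h3 => by
  obtain ⟨D, e, _, hD, hD3, hB, ⟨F⟩⟩ := exists_curve_family hΔ hW h3
  obtain ⟨r, hr0, hr, hr3, hrD, h2, hfree⟩ := exists_auxiliary_factor (NeZero.pos D) e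
  obtain ⟨h, φ₀, O, hmd, hzero, hlaw, hinv, hO, hint, hunit, hT⟩ :=
    F.exists_weightTwo_member hΔ (rho_surjective hΔ hW h3) hr0 hr3
  have : NeZero (3 ^ (e + 1) * r) := ⟨mul_ne_zero (pow_ne_zero _ three_ne_zero) hr0.ne'⟩
  have hMD : Nat.Coprime (3 ^ (e + 1) * r) D :=
    Nat.Coprime.mul_left (Nat.Coprime.pow_left _ F.vd.cop) hrD
  obtain ⟨ℓ₀, hℓ₀, hℓ₀N, hgood, hℓ₀D, hℓ₀3, ha⟩ :=
    exists_auxiliary_prime hΔ hW h3 (NeZero.pos (3 ^ (e + 1) * r)) (NeZero.pos D)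
  let S : Set ℕ := {ℓ | ℓ.Prime ∧ ¬ ℓ ∣ 3 ^ (e + 1) * r * D ∧ W.IsGoodPrimeFor ℓ ∧
    (D : ℤ) ∣ (ℓ : ℤ) - 1}
  obtain ⟨x, hx0, hx⟩ := exists_residual_level hMD hfree F.vd F.chi F.chi_root h hmd hzero
    hlaw hinv O hO φ₀ hint hunit S (fun ℓ hℓ => ⟨hℓ.1, hℓ.2.1, hℓ.2.2.2⟩) (fun ℓ => W.apOfModel ℓ)
    (fun ℓ hℓ => hT ℓ hℓ.1 hℓ.2.1 hℓ.2.2.1 hℓ.2.2.2) (ℓ₀ := ℓ₀) ⟨hℓ₀, hℓ₀N, hgood, hℓ₀D⟩ hℓ₀3 ha
  obtain ⟨M₀, hsq, hres⟩ := exists_squarefree_of_class hΔ hW h3 hD hD3 hr hr3 hrD h2 hB hx0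
    fun ℓ _ h1 h2 h3' h4 => hx ℓ ⟨h1, h2, h3', h4⟩
  exact ⟨M₀, Nat.pos_of_ne_zero hsq.ne_zero, hsq, hres⟩

end Fermat.Agent.ResidualThree.SquarefreeLevel
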