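import Fermat.Agent.ResidualThree.SquarefreeLevel.Scale
import Fermat.Agent.ResidualThree.SquarefreeLevel.Twin
import Fermat.Agent.ResidualThree.WeightTwo.Compare

/-!
# A family containing a member congruent to the curve at `ℓ ≡ 1 (mod D)`

The values at a fixed point of the families of level `Q r` form a space of classical weight-one
forms of level `Q r D²` stable under `T_ℓ`, `ℓ ≡ 1 (mod D)`. An eigenform there in the split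
eigensystem is congruent to the curve or to its twist; in the second case the Atkin–Lehner image
is.
-/

noncomputable section

open CongruenceSubgroup UpperHalfPlane ModularFormClass WeierstrassCurve
open scoped ModularForm MatrixGroups Manifold

namespace Fermat.Agent.ResidualThree.SquarefreeLevel

variable {V : Type} {W : Representation ℂ SL(2, ℤ) (V → ℂ)} {ι : Type}
  {act : ι → Module.End ℂ (V → ℂ)} {χ : ι → ℂ}

/-- The value of a family at `ψ`, conjugated by `diag (D, 1)` to have period `1`. -/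
def evalOne {D : ℕ} (hD : D ≠ 0) (ψ : V → ℂ) : ((V → ℂ) →ₗ[ℂ] (ℍ → ℂ)) →ₗ[ℂ] (ℍ → ℂ) where
  toFun h := h ψ ∣[(1 : ℤ)] intGL (dMat D)
  map_add' a b := by rw [LinearMap.add_apply, SlashAction.add_slash]
  map_smul' c a := by
    rw [LinearMap.smul_apply, smul_slash_intGL
      (by rw [det_dMat]; exact_mod_cast Nat.pos_of_ne_zero hD), RingHom.id_apply]

theorem evalOne_apply {D : ℕ} (hD : D ≠ 0) (ψ : V → ℂ) (h : (V → ℂ) →ₗ[ℂ] (ℍ → ℂ)) :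
    evalOne hD ψ h = h ψ ∣[(1 : ℤ)] intGL (dMat D) := rfl

attribute [local irreducible] evalOne

/-- The primes congruent to `1` modulo `D`. -/
abbrev OnePrime (N D : ℕ) : Type := {ℓ : GoodPrime N // (D : ℤ) ∣ (ℓ.1 : ℤ) - 1}

theorem heckeOne_smul {ℓ : ℕ} (hℓ : ℓ.Prime) (c : ℂ) (f : ℍ → ℂ) :
    heckeOne ℓ (c • f) = c • heckeOne ℓ f := by
  have : Fact ℓ.Prime := ⟨hℓ⟩
  rw [heckeOne_eq_sum, heckeOne_eq_sum, Finset.smul_sum]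
  refine Finset.sum_congr rfl fun i _ => ?_
  rw [smul_slash_intGL (by rw [det_hRep]; exact_mod_cast hℓ.pos), smul_comm]

theorem natCast_eq_one_of_dvd {ℓ D : ℕ} (h : (D : ℤ) ∣ (ℓ : ℤ) - 1) : (ℓ : ZMod D) = 1 := by
  have := (ZMod.intCast_zmod_eq_zero_iff_dvd ((ℓ : ℤ) - 1) D).2 h
  push_cast at this
  exact sub_eq_zero.1 this

/-- An eigen member of the split system, with eigenvalues at `ℓ ≡ 1 (mod D)`. -/
theorem exists_eigen_member {M D N : ℕ} [NeZero N] (hD : D ≠ 0) (hDN : D ∣ N) (h3 : 3 ∣ M)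
    (hMN : M ∣ N) (hW : ∀ g ∈ CongruenceSubgroup.Gamma D, W g = 1)
    {L : (V → ℂ) →ₗ[ℂ] (ℍ → ℂ)} (hL : IsLiftFam M W act χ L) (ψ : V → ℂ)
    (hf₀ : IsW1 N (evalOne hD ψ L)) (hne : evalOne hD ψ L ≠ 0)
    (SP : Set (GoodPrime N)) (a : GoodPrime N → ℂ)
    (heq : ∀ ℓ ∈ SP, seqHecke ℓ.1 (fun n => qCoeff (evalOne hD ψ L) n) =
      a ℓ • fun n => qCoeff (evalOne hD ψ L) n) :
    ∃ (h : (V → ℂ) →ₗ[ℂ] (ℍ → ℂ)) (μ : GoodPrime N → ℂ), IsLiftFam M W act χ h ∧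
      IsW1 N (evalOne hD ψ h) ∧ evalOne hD ψ h ≠ 0 ∧
      (∀ ℓ : GoodPrime N, (D : ℤ) ∣ (ℓ.1 : ℤ) - 1 →
        heckeOne ℓ.1 (evalOne hD ψ h) = μ ℓ • evalOne hD ψ h) ∧
      (∀ ℓ ∈ SP, μ ℓ = a ℓ ∧ heckeOne ℓ.1 (evalOne hD ψ h) = μ ℓ • evalOne hD ψ h) := by
  have h3N : 3 ∣ N := h3.trans hMN
  have := finiteDimensional_w1Space h3N
  let Y : Submodule ℂ (w1Space N) :=
    ((famSpace M W act χ).map (evalOne hD ψ)).comap (w1Space N).subtype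
  let U : Submodule ℂ (ℕ → ℂ) := Y.map (w1Seq N) ⊓
    ⨅ ℓ ∈ SP, Module.End.eigenspace (seqHecke ℓ.1) (a ℓ)
  have hmem : ∀ {b : ℕ → ℂ}, b ∈ U ↔ b ∈ Y.map (w1Seq N) ∧
      ∀ ℓ ∈ SP, seqHecke ℓ.1 b = a ℓ • b := by
    intro b
    simp [U, Submodule.mem_iInf]
  have : FiniteDimensional ℂ U := Submodule.finiteDimensional_of_le inf_le_left
  let act' : MvPolynomial (OnePrime N D) ℤ →+* Module.End ℂ (ℕ → ℂ) :=
    (seqAct N).toRingHom.comp (MvPolynomial.rename Subtype.val).toRingHom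
  have hstY : ∀ (P : MvPolynomial (OnePrime N D) ℤ), ∀ g ∈ Y,
      ∃ g' ∈ Y, w1Seq N g' = act' P (w1Seq N g) := by
    intro P
    induction P using MvPolynomial.induction_on with
    | C z =>
      intro g hg
      refine ⟨(z : ℂ) • g, Y.smul_mem _ hg, ?_⟩
      simp only [act', RingHom.comp_apply, AlgHom.toRingHom_eq_coe, RingHom.coe_coe,
        MvPolynomial.rename_C]
      rw [seqAct_C_apply, map_smul]
    | add p q hp hq =>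
      intro g hg
      obtain ⟨x, hx, ex⟩ := hp g hg
      obtain ⟨y, hy, ey⟩ := hq g hg
      exact ⟨x + y, add_mem hx hy, by rw [map_add, map_add, LinearMap.add_apply, ex, ey]⟩
    | mul_X p ℓ hp =>
      intro g hg
      have hℓ := ℓ.1.2.1
      have : Fact ℓ.1.1.Prime := ⟨hℓ⟩
      have hDℓ : (D : ZMod ℓ.1.1) ≠ 0 := fun h0 =>
        ℓ.1.2.2 ((((ZMod.natCast_eq_zero_iff _ _).1 h0)).trans hDN)
      obtain ⟨h, hh, hgh⟩ := hg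
      set g' : w1Space N := ⟨heckeOne ℓ.1.1 g.1, IsW1.heckeOne hℓ ℓ.1.2.2 h3N g.2⟩ with hg'
      have hg'Y : g' ∈ Y := by
        refine ⟨heckeFam ℓ.1.1 D h, hh.heckeFam hW hℓ
          (fun hd => ℓ.1.2.2 (hd.trans hMN)) h3 (natCast_eq_one_of_dvd ℓ.2) hDℓ, ?_⟩
        show evalOne hD ψ (heckeFam ℓ.1.1 D h) = heckeOne ℓ.1.1 g.1
        rw [evalOne_apply, heckeFam_apply, heckeD_slash_dMat hD, ← evalOne_apply hD, hgh]
        rfl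
      obtain ⟨x, hx, ex⟩ := hp g' hg'Y
      refine ⟨x, hx, ?_⟩
      rw [ex, hg', w1Seq_heckeOne hℓ ℓ.1.2.2 h3N, map_mul, Module.End.mul_apply]
      simp [act', seqAct_X]
  have hst : ∀ (P : MvPolynomial (OnePrime N D) ℤ), ∀ b ∈ U, act' P b ∈ U := by
    intro P b hb
    obtain ⟨⟨g, hg, rfl⟩, hb2⟩ := hmem.1 hb
    obtain ⟨g', hg', e⟩ := hstY P g hg
    refine hmem.2 ⟨⟨g', hg', e⟩, fun ℓ hℓ => ?_⟩
    show seqHecke ℓ.1 (seqAct N (MvPolynomial.rename Subtype.val P) (w1Seq N g)) =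
      a ℓ • seqAct N (MvPolynomial.rename Subtype.val P) (w1Seq N g)
    rw [← seqAct_X N ℓ, ← Module.End.mul_apply, ← map_mul, mul_comm, map_mul,
      Module.End.mul_apply, seqAct_X, hb2 ℓ hℓ, map_smul]
  let ρ : MvPolynomial (OnePrime N D) ℤ →+* Module.End ℂ U :=
    { toFun := fun P => (act' P).restrict (hst P)
      map_one' := LinearMap.ext fun b => Subtype.ext (by simp)
      map_mul' := fun P Q => LinearMap.ext fun b => Subtype.ext (by simp)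
      map_zero' := LinearMap.ext fun b => Subtype.ext (by simp)
      map_add' := fun P Q => LinearMap.ext fun b => Subtype.ext (by simp) }
  have hw₀ : (fun n => qCoeff (evalOne hD ψ L) n) ∈ U :=
    hmem.2 ⟨⟨⟨_, hf₀⟩, ⟨L, hL, rfl⟩, rfl⟩, heq⟩
  have hw₀' : (⟨_, hw₀⟩ : U) ≠ 0 := fun h =>
    hne (congrArg Subtype.val (w1Seq_injective (a₁ := ⟨_, hf₀⟩) (a₂ := 0)
      ((congrArg Subtype.val h).trans (map_zero (w1Seq N)).symm)))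
  obtain ⟨v, -, hv0, hv⟩ := Eis.exists_common_eigenvector ρ ⊤ (fun _ _ _ => trivial)
    ((Submodule.ne_bot_iff _).2 ⟨⟨_, hw₀⟩, trivial, hw₀'⟩)
  obtain ⟨⟨g, ⟨h, hh, hgh⟩, hgv⟩, hv2⟩ := hmem.1 v.2
  choose c hc using hv
  classical
  let μ : GoodPrime N → ℂ := fun ℓ =>
    if ℓ ∈ SP then a ℓ else
      if h1 : (D : ℤ) ∣ (ℓ.1 : ℤ) - 1 then c (MvPolynomial.X ⟨ℓ, h1⟩) else 0
  have hgfun : evalOne hD ψ h = g.1 := hgh
  have hgne : g.1 ≠ 0 := fun h0 => hv0 (Subtype.ext (by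
    rw [← hgv, show g = 0 from Subtype.ext h0, map_zero]
    rfl))
  have hop : ∀ (ℓ : GoodPrime N) (r : ℂ), seqHecke ℓ.1 (v : ℕ → ℂ) = r • (v : ℕ → ℂ) →
      heckeOne ℓ.1 g.1 = r • g.1 := fun ℓ r hr =>
    congrArg Subtype.val (w1Seq_injective (a₁ := ⟨_, IsW1.heckeOne ℓ.2.1 ℓ.2.2 h3N g.2⟩)
      (a₂ := r • g) (by rw [w1Seq_heckeOne ℓ.2.1 ℓ.2.2 h3N, map_smul, hgv, hr]))
  refine ⟨h, μ, hh, hgfun ▸ g.2, hgfun ▸ hgne, fun ℓ h1 => ?_, fun ℓ hℓ => ?_⟩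
  · rw [hgfun]
    refine hop ℓ _ ?_
    by_cases hS : ℓ ∈ SP
    · rw [show μ ℓ = a ℓ from if_pos hS]
      exact hv2 ℓ hS
    · rw [show μ ℓ = c (MvPolynomial.X ⟨ℓ, h1⟩) by simp [μ, if_neg hS, dif_pos h1]]
      have e := congrArg Subtype.val (hc (MvPolynomial.X (⟨ℓ, h1⟩ : OnePrime N D)))
      simpa [ρ, act', seqAct_X] using e
  · have e : μ ℓ = a ℓ := if_pos hℓ
    exact ⟨e, by rw [hgfun, e]; exact hop ℓ _ (hv2 ℓ hℓ)⟩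

/-- A family of level `M` has a member of level `N` with integral normalised coefficients which is
an eigenform at the primes `≡ 1 (mod D)`, congruent there to the curve. -/
def HasMember {W' : WeierstrassCurve ℤ} (M D N : ℕ) (hD : D ≠ 0)
    (W : Representation ℂ SL(2, ℤ) (V → ℂ)) (act : ι → Module.End ℂ (V → ℂ)) (χ : ι → ℂ) : Prop :=
  ∃ (h : (V → ℂ) →ₗ[ℂ] (ℍ → ℂ)) (ψ : V → ℂ) (O : ValuationSubring ℂ),
    IsLiftFam M W act χ h ∧ O.valuation 3 < 1 ∧ IsW1 N (evalOne hD ψ h) ∧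
    (∀ n, qCoeff (evalOne hD ψ h) n ∈ O) ∧ (∃ n, qCoeff (evalOne hD ψ h) n = 1) ∧
    ∀ ℓ : ℕ, ℓ.Prime → ¬ ℓ ∣ N → W'.IsGoodPrimeFor ℓ → (D : ℤ) ∣ (ℓ : ℤ) - 1 →
      ∃ μ : ℂ, heckeOne ℓ (evalOne hD ψ h) = μ • evalOne hD ψ h ∧
        O.valuation (μ - (W'.apOfModel ℓ : ℂ)) < 1

/-- An eigenform in the family with eigenvalues congruent to the curve gives, after normalising
its coefficients, a member. -/
theorem hasMember_of_eigen {W' : WeierstrassCurve ℤ} {M D N : ℕ} [NeZero N] (hD : D ≠ 0)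
    (h3 : 3 ∣ N) {h : (V → ℂ) →ₗ[ℂ] (ℍ → ℂ)} (hh : IsLiftFam M W act χ h) {ψ : V → ℂ}
    (hf : IsW1 N (evalOne hD ψ h)) (hne : evalOne hD ψ h ≠ 0) (O : ValuationSubring ℂ)
    (hO : O.valuation 3 < 1)
    (heig : ∀ ℓ : ℕ, ℓ.Prime → ¬ ℓ ∣ N → W'.IsGoodPrimeFor ℓ → (D : ℤ) ∣ (ℓ : ℤ) - 1 →
      ∃ μ : ℂ, heckeOne ℓ (evalOne hD ψ h) = μ • evalOne hD ψ h ∧
        O.valuation (μ - (W'.apOfModel ℓ : ℂ)) < 1) :
    HasMember (W' := W') M D N hD W act χ := by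
  obtain ⟨c, hc, n₀, hn₀⟩ := exists_normalising h3 hf hne O
  have e : evalOne hD ψ (c • h) = c • evalOne hD ψ h := map_smul _ _ _
  have hq : ∀ n, qCoeff (evalOne hD ψ (c • h)) n = c * qCoeff (evalOne hD ψ h) n := fun n => by
    rw [e]
    show (qExpansion 1 (c • evalOne hD ψ h)).coeff n = _
    rw [UpperHalfPlane.qExpansion_smul (hf.goodFn.analyticAt one_pos), PowerSeries.coeff_smul]
    rfl
  refine ⟨c • h, ψ, O, (famSpace M W act χ).smul_mem c hh, hO, e ▸ hf.smul c,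
    fun n => hq n ▸ hc n, ⟨n₀, (hq n₀).trans hn₀⟩, fun ℓ hℓ hℓN hg hd => ?_⟩
  obtain ⟨μ, hμ, hv⟩ := heig ℓ hℓ hℓN hg hd
  exact ⟨μ, by rw [e, heckeOne_smul hℓ, hμ, smul_comm], hv⟩

/-- A weight-one form in the split system is congruent to the curve or to its twist on the set of
primes where it is an eigenform. -/
theorem exists_valuation_dichotomy {W' : WeierstrassCurve ℤ} (hΔ : W'.Δ ≠ 0)
    (hsurj : Function.Surjective (rho hΔ)) {N : ℕ} [NeZero N] (h3N : 3 ∣ N) {f : ℍ → ℂ}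
    (hf : IsW1 N f) (hfne : f ≠ 0) (S1 : Set (GoodPrime N)) (μ : GoodPrime N → ℂ)
    (heigf : ∀ ℓ ∈ S1, heckeOne ℓ.1 f = μ ℓ • f) (S : Finset ℕ)
    (hsplit : ∀ ℓ : GoodPrime N, ℓ.1 ∉ S → ℓ.1 % 3 = 1 → ℓ ∈ S1 ∧ ∃ a : ℤ, μ ℓ = (a : ℂ) ∧
      (a : ZMod 3) = (W'.apOfModel ℓ.1 : ZMod 3)) :
    ∃ O : ValuationSubring ℂ, O.valuation 3 < 1 ∧
      ((∀ ℓ ∈ S1, W'.IsGoodPrimeFor ℓ.1 → O.valuation (μ ℓ - (W'.apOfModel ℓ.1 : ℂ)) < 1) ∨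
      ∀ ℓ ∈ S1, W'.IsGoodPrimeFor ℓ.1 →
        O.valuation (μ ℓ - chiC (ℓ.1 : ℤ) * (W'.apOfModel ℓ.1 : ℂ)) < 1) := by
  classical
  obtain ⟨f', lam, hf', hfne', heig, hlam⟩ := exists_w1_eigen h3N hf hfne S1 μ (fun ℓ hℓ => by
    have e := w1Seq_heckeOne ℓ.2.1 ℓ.2.2 h3N ⟨f, hf⟩
    rw [show (⟨heckeOne ℓ.1 f, IsW1.heckeOne ℓ.2.1 ℓ.2.2 h3N hf⟩ : w1Space N) = μ ℓ • ⟨f, hf⟩
      from Subtype.ext (heigf ℓ hℓ), map_smul] at e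
    exact e.symm)
  obtain ⟨𝔭, h𝔭, h𝔭3⟩ := FLTPrelim.exists_maximalIdeal_natCast_prime_mem Nat.prime_three
  have := h𝔭
  obtain ⟨g, hg, 𝔐, hM, h3M, hab⟩ :=
    exists_eigenform_of_w1 h3N hf' hfne' heig 𝔭 (by simpa using h𝔭3)
  have := hM
  choose av bv hav hbv hiff using hab
  let aF : ℕ → integralClosure ℤ ℂ := fun ℓ =>
    if h : ℓ.Prime ∧ ¬ ℓ ∣ N then av ⟨ℓ, h⟩ else 0
  have haF : ∀ ℓ : GoodPrime N, aF ℓ.1 = av ℓ := fun ℓ => dif_pos ℓ.2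
  have hsplit' : ∀ ℓ : ℕ, ℓ.Prime → ¬ ℓ ∣ N → ℓ ∉ S → ℓ % 3 = 1 →
      aF ℓ - (W'.apOfModel ℓ : integralClosure ℤ ℂ) ∈ 𝔐 := by
    intro ℓ hℓ hℓN hℓS hmod
    rw [haF ⟨ℓ, hℓ, hℓN⟩, hiff]
    obtain ⟨hmem, a, hμ, h⟩ := hsplit ⟨ℓ, hℓ, hℓN⟩ hℓS hmod
    rw [← sub_eq_zero, ← Int.cast_sub, ZMod.intCast_zmod_eq_zero_iff_dvd] at h
    obtain ⟨z, hz⟩ := h
    have e : bv ⟨ℓ, hℓ, hℓN⟩ = (a : integralClosure ℤ ℂ) := Subtype.ext (by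
      rw [hbv, hlam _ hmem, hμ]; simp)
    rw [e, ← Int.cast_sub, hz, Int.cast_mul]
    exact 𝔭.mul_mem_right _ (by simpa using h𝔭3)
  obtain ⟨O, hOint, hOm⟩ := exists_valuation_over 𝔭 h𝔭.ne_top
  have hO3 : O.valuation 3 < 1 := by
    have := hOm _ h𝔭3
    rwa [SubringClass.coe_natCast, Nat.cast_ofNat] at this
  have hval : ∀ (ℓ : GoodPrime N) (z : ℤ), ℓ ∈ S1 → bv ℓ - (z : integralClosure ℤ ℂ) ∈ 𝔭 →
      O.valuation (μ ℓ - (z : ℂ)) < 1 := fun ℓ z hℓ hz => by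
    have := hOm _ hz
    rwa [AddSubgroupClass.coe_sub, hbv, SubringClass.coe_intCast, hlam ℓ hℓ] at this
  refine ⟨O, hO3, ?_⟩
  rcases congruent_or_twist hΔ hsurj hg 𝔐 (by simpa using h3M) aF
      (fun ℓ hℓ hℓN => by rw [haF ⟨ℓ, hℓ, hℓN⟩, hav]) _ hsplit' with hcong | htw
  · refine Or.inl fun ℓ hℓ hgood => ?_
    have hℓ3 : ℓ.1 ≠ 3 := fun e => ℓ.2.2 (e ▸ h3N)
    have h1 := hcong ℓ.1 ℓ.2.1 ℓ.2.2 hℓ3 hgood
    rw [haF ℓ, hiff] at h1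
    exact hval _ _ hℓ h1
  · refine Or.inr fun ℓ hℓ hgood => ?_
    have hℓ3 : ℓ.1 ≠ 3 := fun e => ℓ.2.2 (e ▸ h3N)
    have h1 := htw ℓ.1 ℓ.2.1 ℓ.2.2 hℓ3 hgood
    rw [haF ℓ, hiff] at h1
    have h2 := hval _ _ hℓ h1
    have hcz : ((chiZ ((ℓ.1 : ℕ) : ZMod 3) : ℤ) : ℂ) = chiC (ℓ.1 : ℤ) := by simp [chiC]
    rwa [Int.cast_mul, hcz] at h2

/-- **The member congruent to the curve.** -/
theorem exists_member {W' : WeierstrassCurve ℤ} (hΔ : W'.Δ ≠ 0)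
    (hsurj : Function.Surjective (rho hΔ)) {Q r D : ℕ} [NeZero (Q * (r * D ^ 2))]
    (hQ : 3 ∣ Q) (hQ3 : ∀ p : ℕ, p.Prime → p ∣ Q → p = 3) (hD : D ≠ 0)
    {t y : ℤ} (hty : (Q : ℤ) * t - (D : ℤ) ^ 2 * r * y = 1)
    (hW : ∀ g ∈ CongruenceSubgroup.Gamma D, W g = 1)
    {L : (V → ℂ) →ₗ[ℂ] (ℍ → ℂ)} (hL : IsLiftFam (Q * r) W act χ L) (ψ₀ : V → ℂ)
    (hf₀ : IsW1 (Q * (r * D ^ 2)) (evalOne hD ψ₀ L)) (hne : evalOne hD ψ₀ L ≠ 0)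
    (S : Finset ℕ)
    (hsplit : ∀ p : ℕ, p.Prime → p ∉ S → p % 3 = 1 → ∃ a : ℤ,
      (∀ n : ℕ, qCoeff (evalOne hD ψ₀ L) (p * n) +
          (if p ∣ n then qCoeff (evalOne hD ψ₀ L) (n / p) else 0) =
        (a : ℂ) * qCoeff (evalOne hD ψ₀ L) n) ∧
      (a : ZMod 3) = (W'.apOfModel p : ZMod 3))
    (σ : Module.End ℂ (V → ℂ))
    (hσ : ∀ γ γ' : SL(2, ℤ),
      CongMod D ((γ' : Matrix (Fin 2) (Fin 2) ℤ) * !![(Q : ℤ), 0; 0, 1])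
        (!![(Q : ℤ), 0; 0, 1] * (γ : Matrix (Fin 2) (Fin 2) ℤ)) →
      ∀ φ, σ (W γ φ) = W γ' (σ φ))
    (hact : ∀ u, ∃ v, χ v = χ u ∧ ∀ φ, σ (act u φ) = act v (σ φ))
    (ψ₁ : V → ℂ) (hψ₁ : σ ψ₁ = ψ₀) :
    HasMember (W' := W') (Q * r) D (Q * (r * D ^ 2)) hD W act χ := by
  classical
  set N := Q * (r * D ^ 2) with hN
  have hQ0 : Q ≠ 0 := left_ne_zero_of_mul (NeZero.ne N)
  have h3N : 3 ∣ N := hQ.mul_right _
  have hMN : Q * r ∣ N := Nat.mul_dvd_mul_left Q (dvd_mul_right r _)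
  have hDN : D ∣ N := dvd_mul_of_dvd_right (dvd_mul_of_dvd_right (dvd_pow_self D two_ne_zero) r) Q
  choose! a ha using hsplit
  let SP : Set (GoodPrime N) := {ℓ | ℓ.1 % 3 = 1 ∧ ℓ.1 ∉ S}
  obtain ⟨h, μ, hh, hf, hfne, hone, hSP⟩ := exists_eigen_member hD hDN (hQ.mul_right r) hMN hW hL
    ψ₀ hf₀ hne SP (fun ℓ => (a ℓ.1 : ℂ)) (by
      rintro ℓ ⟨hmod, hℓS⟩
      funext n
      have hχ : chiC ((ℓ.1 : ℕ) : ℤ) = 1 := by
        rw [← chiC_one]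
        exact chiC_congr (by omega)
      rw [seqHecke_apply, hχ, one_mul]
      exact (ha ℓ.1 ℓ.2.1 hℓS hmod).1 n)
  let f : ℍ → ℂ := evalOne hD ψ₀ h
  -- the primes at which `f` is an eigenform
  let S1 : Set (GoodPrime N) := {ℓ | (D : ℤ) ∣ (ℓ.1 : ℤ) - 1 ∨ ℓ ∈ SP}
  have heigf : ∀ ℓ ∈ S1, heckeOne ℓ.1 f = μ ℓ • f := fun ℓ hℓ =>
    hℓ.elim (hone ℓ) fun h1 => (hSP ℓ h1).2
  obtain ⟨O, hO3, hcong | htw⟩ := exists_valuation_dichotomy hΔ hsurj h3N hf hfne S1 μ heigf S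
      fun ℓ hℓS hmod => ⟨Or.inr ⟨hmod, hℓS⟩, a ℓ.1, (hSP _ ⟨hmod, hℓS⟩).1,
        (ha ℓ.1 ℓ.2.1 hℓS hmod).2⟩
  · exact hasMember_of_eigen (ψ := ψ₀) hD h3N hh hf hfne O hO3 fun ℓ hℓ hℓN hgood hd =>
      ⟨μ ⟨ℓ, hℓ, hℓN⟩, hone ⟨ℓ, hℓ, hℓN⟩ hd, hcong ⟨ℓ, hℓ, hℓN⟩ (Or.inl hd) hgood⟩
  · -- congruent to the twist: take the Atkin–Lehner image
    have hw : 0 < (alMat Q r D t y).det := by
      rw [det_alMat hty]; exact_mod_cast Nat.pos_of_ne_zero hQ0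
    have hcop : Nat.Coprime Q (r * D ^ 2) := Nat.isCoprime_iff_coprime.1
      ⟨t, -y, by push_cast; linear_combination hty⟩
    obtain ⟨Φ, hΦ, hΦ1, hΦne⟩ := exists_alImage hQ hQ0 hcop rfl hf
    have hwm := isALMatrix_alMatOne hty hN
    have hy := chiC_mul_self (hwm.not_three_dvd hQ hN hQ0)
    set κ := chiC ((alMatOne Q r D t y) 0 1) with hκ
    have e2 : evalOne hD ψ₁ (twinFam (alMat Q r D t y) hw σ h) = κ • Φ := by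
      rw [evalOne_apply, twinFam_slash_dMat hD hty hQ0 hw σ h ψ₁, hψ₁]
      have h0 := hΦ _ hwm
      rw [evalOne_apply] at h0
      exact h0
    have hne2 : κ • Φ ≠ 0 := fun h0 => hΦne hfne (by
      have := congrArg (fun F => κ • F) h0
      rwa [smul_smul, hy, one_smul, smul_zero] at this)
    refine hasMember_of_eigen (ψ := ψ₁) hD h3N (IsLiftFam.twinFam h hh hty hQ hQ0 σ hσ hact hw)
      (e2 ▸ hΦ1.smul κ) (e2 ▸ hne2) O hO3 fun ℓ hℓ hℓN hgood hd =>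
      ⟨chiC ℓ * μ ⟨ℓ, hℓ, hℓN⟩, ?_, ?_⟩
    · rw [e2]
      have h1 := IsALImage.heckeOne hQ hN hQ3 hQ0 hΦ hℓ hℓN _ hwm
      have hpos : 0 < (alMatOne Q r D t y).det := by
        rw [hwm.1]; exact_mod_cast Nat.pos_of_ne_zero hQ0
      rw [hone ⟨ℓ, hℓ, hℓN⟩ hd, smul_slash_intGL hpos, hΦ _ hwm, ← hκ, smul_smul, smul_smul] at h1
      have hℓℓ := chiC_natCast_ne hℓ (fun e => hℓN (e ▸ h3N))
      have h2 := congrArg (fun F => (chiC ℓ) • F) h1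
      simp only [smul_smul] at h2
      rw [show chiC ℓ * (κ * chiC ℓ) = κ * (chiC ℓ * chiC ℓ) by ring, hℓℓ, mul_one] at h2
      rw [heckeOne_smul hℓ, ← h2, smul_smul]
      congr 1
      ring
    · have hℓ3 : ℓ ≠ 3 := fun e => hℓN (e ▸ h3N)
      have h2 := htw ⟨ℓ, hℓ, hℓN⟩ (Or.inl hd) hgood
      have hχ : chiC (ℓ : ℤ) * chiC (ℓ : ℤ) = 1 := chiC_natCast_ne hℓ hℓ3
      rw [show chiC (ℓ : ℤ) * μ ⟨ℓ, hℓ, hℓN⟩ - (W'.apOfModel ℓ : ℂ) =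
        chiC (ℓ : ℤ) * (μ ⟨ℓ, hℓ, hℓN⟩ - chiC (ℓ : ℤ) * (W'.apOfModel ℓ : ℂ)) by
          linear_combination (W'.apOfModel ℓ : ℂ) * hχ, map_mul]
      refine lt_of_le_of_lt (mul_le_of_le_one_left' ?_) h2
      exact (O.valuation_le_one_iff _).2 (intCast_mem O _)

end Fermat.Agent.ResidualThree.SquarefreeLevel
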