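import Mathlib.NumberTheory.PrimesCongruentOne
import Fermat.Agent.Grp.Elements
import Fermat.Agent.ResidualThree.SquarefreeLevel.Member

/-!
# Levels: freeness of `Γ₀(M)` and monotonicity

`Γ₀(M)` is free of elliptic elements of order three when `a² + a c + c²` has no primitive zero
modulo `M`, for instance when `9 ∣ M`; a suitable auxiliary factor makes the levels used here
free and even, and families persist at multiples of the level.
-/

noncomputable section

open CongruenceSubgroup
open scoped MatrixGroups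
open Fermat.Agent.Grp (R)

namespace Fermat.Agent.ResidualThree.SquarefreeLevel

/-- Without primitive zeros of `a² + a c + c²` modulo `M` the element of order three has no
fixed coset. -/
theorem free_of_form {M : ℕ}
    (h : ∀ a c : ℤ, IsCoprime a c → ¬ (M : ℤ) ∣ a * a + a * c + c * c)
    (x : SL(2, ℤ) ⧸ Gamma0 M) : R • x ≠ x := fun hx => by
  induction x using QuotientGroup.induction_on with
  | _ y =>
    rw [MulAction.Quotient.smul_coe, QuotientGroup.eq, Gamma0_mem,
      ZMod.intCast_zmod_eq_zero_iff_dvd] at hx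
    have hd := y.det_coe
    rw [Matrix.det_fin_two] at hd
    refine h (y 0 0) (y 1 0) ⟨y 1 1, -y 0 1, by linear_combination hd⟩ ?_
    have e : ((R • y : SL(2, ℤ))⁻¹ * y) 1 0 =
        -(y 0 0 * y 0 0 + y 0 0 * y 1 0 + y 1 0 * y 1 0) := by
      simp [R, smul_eq_mul, Matrix.SpecialLinearGroup.coe_inv, Matrix.adjugate_fin_two,
        Matrix.mul_apply, Fin.sum_univ_two, ModularGroup.coe_S, ModularGroup.coe_T]
      ring
    rw [e] at hx
    exact dvd_neg.1 hx

/-- `Γ₀(M)` is free of elliptic elements of order three when `9 ∣ M`. -/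
theorem free_gamma0_nine {M : ℕ} (hM : 9 ∣ M) (x : SL(2, ℤ) ⧸ Gamma0 M) : R • x ≠ x := by
  refine free_of_form (fun a c hac hd => ?_) x
  have h9 : ((a * a + a * c + c * c : ℤ) : ZMod 9) = 0 :=
    (ZMod.intCast_zmod_eq_zero_iff_dvd _ 9).2 ((Int.natCast_dvd_natCast.2 hM).trans hd)
  push_cast at h9
  have key : ∀ u v : ZMod 9, u * u + u * v + v * v = 0 → 3 * u = 0 ∧ 3 * v = 0 := by decide
  obtain ⟨hu, hv⟩ := key _ _ h9
  obtain ⟨p, q, hpq⟩ := hac
  have e := congrArg (fun z : ℤ => (z : ZMod 9)) hpq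
  push_cast at e
  have h3 : (3 : ZMod 9) = 0 := by linear_combination (-3 : ZMod 9) * e + p * hu + q * hv
  exact absurd h3 (by decide)

/-- `Γ₀(M)` is free of elliptic elements of order three when a prime `≡ 2 (mod 3)` divides `M`. -/
theorem free_gamma0_prime {M r : ℕ} (hr : r.Prime) (hr2 : r % 3 = 2) (hM : r ∣ M)
    (x : SL(2, ℤ) ⧸ Gamma0 M) : R • x ≠ x := by
  have : Fact r.Prime := ⟨hr⟩
  refine free_of_form (fun a c hac hd => ?_) x
  have h0 : ((a * a + a * c + c * c : ℤ) : ZMod r) = 0 :=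
    (ZMod.intCast_zmod_eq_zero_iff_dvd _ r).2 ((Int.natCast_dvd_natCast.2 hM).trans hd)
  push_cast at h0
  by_cases hc : (c : ZMod r) = 0
  · rw [hc, mul_zero, mul_zero, add_zero, add_zero, mul_self_eq_zero] at h0
    obtain ⟨p, q, hpq⟩ := hac
    have e := congrArg (fun z : ℤ => (z : ZMod r)) hpq
    push_cast at e
    rw [h0, hc] at e
    simp at e
  · set u := (a : ZMod r) * (c : ZMod r)⁻¹ with hu
    have hu' : u * u + u + 1 = 0 := by
      rw [hu]
      field_simp
      linear_combination h0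
    have hu3 : u ^ 3 = 1 := by linear_combination (u - 1) * hu'
    have hu0 : u ≠ 0 := fun h => by simp [h] at hu'
    have h1 : u = 1 := by
      have hF := ZMod.pow_card_sub_one_eq_one hu0
      obtain ⟨k, hk⟩ : ∃ k, r - 1 = 3 * k + 1 := ⟨(r - 1) / 3, by omega⟩
      rw [hk, pow_add, pow_mul, hu3, one_pow, one_mul, pow_one] at hF
      exact hF
    rw [h1] at hu'
    have h3 : ((3 : ℕ) : ZMod r) = 0 := by push_cast; linear_combination hu'
    rw [ZMod.natCast_eq_zero_iff] at h3
    have := (Nat.prime_dvd_prime_iff_eq hr Nat.prime_three).1 h3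
    omega

/-- The auxiliary factor: prime to `3 D`, the level `3^(e+1) r D` even and free. -/
theorem exists_auxiliary_factor {D : ℕ} (hD : 0 < D) (e : ℕ) :
    ∃ r : ℕ, 0 < r ∧ Squarefree r ∧ ¬ 3 ∣ r ∧ Nat.Coprime r D ∧ 2 ∣ r * D ∧
      ∀ x : SL(2, ℤ) ⧸ Gamma0 (3 ^ (e + 1) * r), R • x ≠ x := by
  by_cases h2 : 2 ∣ D
  · by_cases he : e = 0
    · subst he
      have : NeZero 3 := ⟨by norm_num⟩
      obtain ⟨r, hr, hr1, hr2⟩ := Nat.forall_exists_prime_gt_and_eq_mod
        (q := 3) (a := 2) (by decide) D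
      have hmod : r % 3 = 2 := by
        have := congrArg ZMod.val hr2
        rwa [ZMod.val_natCast] at this
      refine ⟨r, hr1.pos, hr1.squarefree, fun h => ?_, hr1.coprime_iff_not_dvd.2 fun h => ?_,
        h2.mul_left r, free_gamma0_prime hr1 hmod (dvd_mul_left r _)⟩
      · omega
      · exact absurd (Nat.le_of_dvd hD h) (not_le.2 hr)
    · exact ⟨1, one_pos, squarefree_one, by norm_num, Nat.coprime_one_left D, by simpa using h2,
        free_gamma0_nine (by
          rw [mul_one, show 9 = 3 ^ 2 by norm_num]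
          exact pow_dvd_pow 3 (by omega))⟩
  · exact ⟨2, two_pos, Nat.prime_two.squarefree, by norm_num,
      Nat.prime_two.coprime_iff_not_dvd.2 h2, dvd_mul_right 2 D,
      free_gamma0_prime Nat.prime_two (by norm_num) (dvd_mul_left 2 _)⟩

variable {V : Type} {W : Representation ℂ SL(2, ℤ) (V → ℂ)} {ι : Type}
  {act : ι → Module.End ℂ (V → ℂ)} {χ : ι → ℂ}

/-- A family of level `M` is one of every multiple of `M`. -/
theorem IsLiftFam.of_dvd {M M' : ℕ} (hd : M ∣ M') {L : (V → ℂ) →ₗ[ℂ] (UpperHalfPlane → ℂ)}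
    (hL : IsLiftFam M W act χ L) : IsLiftFam M' W act χ L where
  mdiff := hL.mdiff
  zero := hL.zero
  law γ hγ := hL.law γ (MF.Gamma0_le_of_dvd hd hγ)
  inv := hL.inv

/-- A weight-one form of level `M` is one of every multiple of `M`. -/
theorem isW1_of_dvd {M M' : ℕ} (hd : M ∣ M') {f : UpperHalfPlane → ℂ} (hf : IsW1 M f) :
    IsW1 M' f where
  mdiff := hf.mdiff
  slash γ hγ := hf.slash γ (MF.Gamma0_le_of_dvd hd hγ)
  zero := hf.zero

end Fermat.Agent.ResidualThree.SquarefreeLevel
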