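import Mathlib.RingTheory.Valuation.LocalSubring
import Fermat.Agent.ResidualThree.SquarefreeLevel.Family
import Fermat.Agent.ResidualThree.WeightTwo.Eigen

/-!
# Normalising the coefficients, and passage to weight two

The coefficients of a weight-one form span a finitely generated group, so the valuation of some
coefficient is maximal.  Multiplying a family by the hexagonal theta series gives a family of weight
two with congruent coefficients.
-/

noncomputable section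

open CongruenceSubgroup UpperHalfPlane ModularFormClass
open scoped ModularForm MatrixGroups Manifold

namespace Fermat.Agent.ResidualThree.SquarefreeLevel

/-- A valuation ring of `ℂ` dominating a maximal ideal of the algebraic integers. -/
theorem exists_valuation_over (𝔭 : Ideal (integralClosure ℤ ℂ)) (h𝔭 : 𝔭 ≠ ⊤) :
    ∃ O : ValuationSubring ℂ, (∀ x : integralClosure ℤ ℂ, (x : ℂ) ∈ O) ∧
      ∀ x ∈ 𝔭, O.valuation (x : ℂ) < 1 := by
  obtain ⟨O, hO, hm⟩ := Ideal.image_subset_nonunits_valuationSubring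
    (A := (integralClosure ℤ ℂ).toSubring) 𝔭 h𝔭
  exact ⟨O, fun x => hO x.2,
    fun x hx => (O.mem_nonunits_iff).1 (hm ⟨x, hx, rfl⟩)⟩

theorem valuation_zsmul_le (O : ValuationSubring ℂ) (z : ℤ) (x : ℂ) :
    O.valuation (z • x) ≤ O.valuation x := by
  rw [zsmul_eq_mul, map_mul]
  exact mul_le_of_le_one_left' ((O.valuation_le_one_iff _).2 (intCast_mem O z))

/-- In a sequence with finitely generated span some valuation is maximal. -/
theorem exists_max_valuation (O : ValuationSubring ℂ) {b : ℕ → ℂ} {P : Submodule ℤ ℂ}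
    (hfg : P.FG) (hb : ∀ n, b n ∈ P) : ∃ n₀, ∀ n, O.valuation (b n) ≤ O.valuation (b n₀) := by
  have : IsNoetherian ℤ P := isNoetherian_of_fg_of_noetherian P hfg
  let ball : ℕ → Submodule ℤ P := fun n =>
    { carrier := {x | O.valuation (x : ℂ) ≤ O.valuation (b n)}
      zero_mem' := by simp
      add_mem' := fun {x y} hx hy => by
        show O.valuation ((x + y : P) : ℂ) ≤ O.valuation (b n)
        rw [Submodule.coe_add]
        exact (O.valuation.map_add _ _).trans (max_le hx hy)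
      smul_mem' := fun z x hx => by
        show O.valuation ((z • x : P) : ℂ) ≤ O.valuation (b n)
        rw [Submodule.coe_smul]
        exact (valuation_zsmul_le O z (x : ℂ)).trans hx }
  obtain ⟨_, ⟨n₀, rfl⟩, hmax⟩ := (set_has_maximal_iff_noetherian.2 inferInstance)
    (Set.range ball) ⟨_, ⟨0, rfl⟩⟩
  refine ⟨n₀, fun n => ?_⟩
  by_contra hlt
  rw [not_le] at hlt
  exact hmax _ ⟨n, rfl⟩ (lt_of_le_not_ge (fun x (hx : O.valuation (x : ℂ) ≤ _) =>
      (le_trans hx hlt.le : O.valuation (x : ℂ) ≤ _))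
    fun hle => not_le.2 hlt
      (hle (show (⟨b n, hb n⟩ : P) ∈ ball n from le_refl (O.valuation (b n)))))

/-- The coefficients of a weight-one form lie in a finitely generated group. -/
theorem exists_fg_coeff {N : ℕ} [NeZero N] (h3 : 3 ∣ N) {f : ℍ → ℂ} (hf : IsW1 N f) :
    ∃ P : Submodule ℤ ℂ, P.FG ∧ ∀ n, qCoeff f n ∈ P := by
  classical
  have hint : CuspForm.HasIntegralStructure N 2 := MF.hasIntegralStructure N 2
  have hspan : thetaMul h3 hf ∈ Submodule.span ℂ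
      ((CuspForm.intLattice N 2 : Submodule ℤ _) : Set (CuspForm (Gamma0 N) 2)) :=
    hint.symm ▸ Submodule.mem_top
  obtain ⟨l, hl⟩ := (Finsupp.mem_span_range_iff_exists_finsupp (v := fun x :
    ((CuspForm.intLattice N 2 : Submodule ℤ _) : Set (CuspForm (Gamma0 N) 2)) => x.1)).1
    (by rwa [Subtype.range_coe])
  refine ⟨Submodule.span ℤ (l.support.image l : Set ℂ), Submodule.fg_span (Finset.finite_toSet _),
    fun n => ?_⟩
  have hbn : qCoeff f n = ∑ x ∈ l.support, l x * bSeqLin N x.1 n := by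
    rw [← congrFun (bSeqLin_thetaMul h3 hf) n, ← hl, Finsupp.sum, map_sum, Finset.sum_apply]
    exact Finset.sum_congr rfl fun x _ => by rw [map_smul]; rfl
  rw [hbn]
  refine Submodule.sum_mem _ fun x hx => ?_
  obtain ⟨z, hz⟩ := isIntSeq_bSeqLin.2 x.2 n
  rw [hz, mul_comm, ← zsmul_eq_mul]
  exact Submodule.smul_mem _ _ (Submodule.subset_span (Finset.mem_image_of_mem l hx))

/-- **Normalised coefficients.** -/
theorem exists_normalising {N : ℕ} [NeZero N] (h3 : 3 ∣ N) {f : ℍ → ℂ} (hf : IsW1 N f)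
    (hne : f ≠ 0) (O : ValuationSubring ℂ) :
    ∃ c : ℂ, (∀ n, c * qCoeff f n ∈ O) ∧ ∃ n, c * qCoeff f n = 1 := by
  obtain ⟨P, hfg, hb⟩ := exists_fg_coeff h3 hf
  obtain ⟨n₀, hn₀⟩ := exists_max_valuation O hfg hb
  have h0 : qCoeff f n₀ ≠ 0 := fun h0 => hne (eq_of_qCoeff hf.goodFn (IsW1.zero_fun (N := N)).goodFn
    fun n => by
      have := hn₀ n
      rw [h0, map_zero, le_zero_iff, map_eq_zero] at this
      rw [this, qCoeff, show qExpansion 1 (0 : ℍ → ℂ) = 0 from UpperHalfPlane.qExpansion_zero 1,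
        map_zero])
  refine ⟨(qCoeff f n₀)⁻¹, fun n => ?_, n₀, inv_mul_cancel₀ h0⟩
  rw [← O.valuation_le_one_iff, map_mul, map_inv₀]
  calc (O.valuation (qCoeff f n₀))⁻¹ * O.valuation (qCoeff f n)
      ≤ (O.valuation (qCoeff f n₀))⁻¹ * O.valuation (qCoeff f n₀) :=
        mul_le_mul_right (hn₀ n) _
    _ = 1 := inv_mul_cancel₀ (fun h => h0 ((map_eq_zero _).1 h))

/-- Multiplication by the hexagonal theta series. -/
def mulTheta {V : Type} (h : (V → ℂ) →ₗ[ℂ] (ℍ → ℂ)) : (V → ℂ) →ₗ[ℂ] (ℍ → ℂ) where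
  toFun φ := h φ * hexTheta
  map_add' a b := by rw [map_add, add_mul]
  map_smul' c a := by rw [map_smul, RingHom.id_apply, smul_mul_assoc]

variable {V : Type} {M : ℕ} {W : Representation ℂ SL(2, ℤ) (V → ℂ)} {ι : Type}
  {act : ι → Module.End ℂ (V → ℂ)} {χ : ι → ℂ} {h : (V → ℂ) →ₗ[ℂ] (ℍ → ℂ)}

theorem mulTheta_apply (φ : V → ℂ) : mulTheta h φ = h φ * hexTheta := rfl

theorem IsLiftFam.mdiff_two (hh : IsLiftFam M W act χ h) (φ : V → ℂ) : MDiff (mulTheta h φ) :=
  (hh.mdiff φ).mul goodFn_hexTheta.holo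

theorem IsLiftFam.zero_two (hh : IsLiftFam M W act χ h) (φ : V → ℂ) (c : OnePoint ℝ)
    (hc : IsCusp c 𝒮ℒ) : c.IsZeroAt (mulTheta h φ) (2 : ℤ) := by
  have h1 := hh.zero φ c hc
  rw [isCusp_SL2Z_iff'] at hc
  obtain ⟨g, rfl⟩ := hc
  rw [OnePoint.IsZeroAt.smul_iff, OnePoint.isZeroAt_infty_iff] at h1 ⊢
  have h2 : (h φ * hexTheta) ∣[(2 : ℤ)] g = h φ ∣[(1 : ℤ)] g * hexTheta ∣[(1 : ℤ)] g := by
    rw [show (2 : ℤ) = 1 + 1 from rfl, ModularForm.mul_slash_SL2]
  show IsZeroAtImInfty ((h φ * hexTheta) ∣[(2 : ℤ)] g)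
  rw [h2]
  exact h1.mul_boundedAtFilter (isBoundedAtImInfty_hexTheta_slash g)

theorem IsLiftFam.law_two (hh : IsLiftFam M W act χ h) (h3 : 3 ∣ M) {γ : SL(2, ℤ)}
    (hγ : γ ∈ Gamma0 M) (φ : V → ℂ) :
    mulTheta h φ ∣[(2 : ℤ)] γ = mulTheta h (W γ⁻¹ φ) := by
  have hγ3 : γ ∈ Gamma0 3 := by
    simp only [Gamma0_mem, ZMod.intCast_zmod_eq_zero_iff_dvd] at hγ ⊢
    exact dvd_trans (by exact_mod_cast h3) hγ
  have hd : ¬ (3 : ℤ) ∣ γ 1 1 := by
    intro hdvd
    have h10 : (3 : ℤ) ∣ γ 1 0 := by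
      have := (ZMod.intCast_zmod_eq_zero_iff_dvd _ 3).1 (Gamma0_mem.1 hγ3)
      exact_mod_cast this
    have hdet := γ.2
    rw [Matrix.det_fin_two] at hdet
    have : (3 : ℤ) ∣ 1 :=
      hdet ▸ dvd_sub (dvd_mul_of_dvd_right hdvd _) (dvd_mul_of_dvd_right h10 _)
    norm_num at this
  rw [mulTheta_apply, show (2 : ℤ) = 1 + 1 from rfl, ModularForm.mul_slash_SL2, hh.law γ hγ,
    hexTheta_slash hγ3, smul_mul_smul_comm, chiC_mul_self hd, one_smul]
  rfl

theorem IsLiftFam.inv_two (hh : IsLiftFam M W act χ h) (u : ι) (φ : V → ℂ) :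
    mulTheta h (act u φ) = χ u • mulTheta h φ := by
  rw [mulTheta_apply, hh.inv, smul_mul_assoc]
  rfl

/-- The expansion of `θ (Dτ)`. -/
def hexExpand (D : ℕ) : PowerSeries ℂ :=
  PowerSeries.mk fun n => if D ∣ n then (hexCoeff (n / D) : ℂ) else 0

theorem hexExpand_spec {D : ℕ} (hD : D ≠ 0) :
    Eis.GoodFn 1 (hexTheta ∣[(1 : ℤ)] intGL (dMat D)) ∧
      qExpansion 1 (hexTheta ∣[(1 : ℤ)] intGL (dMat D)) = hexExpand D := by
  have e0 : intGL (dMat D) = ModularForm.heckeDiagMatrix D := intGL_hRep_none hD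
  have hs : ∀ τ : ℍ, HasSum (fun m => (hexExpand D).coeff m * Function.Periodic.qParam 1 τ ^ m)
      ((hexTheta ∣[(1 : ℤ)] intGL (dMat D)) τ) := by
    intro τ
    rw [e0, ModularForm.slash_heckeDiagMatrix_apply 1 hD]
    simp only [sub_self, zpow_zero, one_mul]
    have h := (hexTheta_fiber (ModularForm.heckeDiagMatrix D • τ)).2
    let e : ℕ → ℕ := fun m => D * m
    have he : Function.Injective e := fun a b h =>
      Nat.eq_of_mul_eq_mul_left (Nat.pos_of_ne_zero hD) h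
    rw [← he.hasSum_iff]
    · convert h using 1
      funext m
      simp only [e, Function.comp_apply, hexExpand, PowerSeries.coeff_mk, dvd_mul_right, if_true,
        Nat.mul_div_cancel_left _ (Nat.pos_of_ne_zero hD)]
      rw [pow_mul]
      congr 2
      rw [Function.Periodic.qParam, Function.Periodic.qParam, ← Complex.exp_nat_mul,
        ModularForm.coe_heckeDiagMatrix_smul hD]
      congr 1
      ring
    · intro m hm
      simp only [hexExpand, PowerSeries.coeff_mk]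
      rw [if_neg (fun hd => hm ⟨m / D, Nat.mul_div_cancel' hd⟩), zero_mul]
  exact ⟨Eis.goodFn_of_hasSum one_pos hs, Eis.qExpansion_eq_of_hasSum one_pos _ hs⟩

/-- **The coefficients in weight two.** -/
theorem qCoeff_mulTheta {N : ℕ} {D : ℕ} (hD : D ≠ 0) (φ : V → ℂ)
    (hf : IsW1 N (h φ ∣[(1 : ℤ)] intGL (dMat D))) (O : ValuationSubring ℂ)
    (hint : ∀ n, qCoeff (h φ ∣[(1 : ℤ)] intGL (dMat D)) n ∈ O) (n : ℕ) :
    ∃ e ∈ O, qCoeff (mulTheta h φ ∣[(2 : ℤ)] intGL (dMat D)) n =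
      (D : ℂ) * qCoeff (h φ ∣[(1 : ℤ)] intGL (dMat D)) n + 3 * e := by
  classical
  obtain ⟨hg, hq⟩ := hexExpand_spec hD
  set f := h φ ∣[(1 : ℤ)] intGL (dMat D) with hfdef
  have habs : |((intGL (dMat D)).det : ℝ)| = (D : ℝ) := by
    rw [show ((intGL (dMat D)).det : ℝ) = (D : ℝ) by
      rw [Matrix.GeneralLinearGroup.val_det_apply, Matrix.det_fin_two]
      simp only [intGL_apply (show (dMat D).det ≠ 0 by rw [det_dMat]; exact_mod_cast hD)]
      simp [dMat], Nat.abs_cast]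
  have e2 : mulTheta h φ ∣[(2 : ℤ)] intGL (dMat D) =
      (D : ℂ) • (f * (hexTheta ∣[(1 : ℤ)] intGL (dMat D))) := by
    rw [mulTheta_apply, show (2 : ℤ) = 1 + 1 from rfl, ModularForm.mul_slash, habs, hfdef]
    funext τ
    simp
  have hqe : qCoeff (mulTheta h φ ∣[(2 : ℤ)] intGL (dMat D)) n =
      (D : ℂ) * ∑ p ∈ Finset.HasAntidiagonal.antidiagonal n,
        qCoeff f p.1 * (hexExpand D).coeff p.2 := by
    rw [qCoeff, e2, UpperHalfPlane.qExpansion_smul ((hf.goodFn.mul hg).analyticAt one_pos),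
      qExpansion_mul (hf.goodFn.analyticAt one_pos) (hg.analyticAt one_pos), hq,
      PowerSeries.coeff_smul, PowerSeries.coeff_mul, smul_eq_mul]
    rfl
  have h3 : ∀ m, m ≠ 0 → ∃ z : ℤ, (hexExpand D).coeff m = 3 * (z : ℂ) := by
    intro m hm
    simp only [hexExpand, PowerSeries.coeff_mk]
    split_ifs with hd
    · obtain ⟨k, hk⟩ := three_dvd_hexCoeff (n := m / D) (Nat.div_ne_zero_iff.2
        ⟨hD, Nat.le_of_dvd (Nat.pos_of_ne_zero hm) hd⟩)
      exact ⟨k, by rw [hk]; push_cast; rfl⟩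
    · exact ⟨0, by simp⟩
  choose! z hz using h3
  refine ⟨(D : ℂ) * ∑ p ∈ (Finset.HasAntidiagonal.antidiagonal n).erase (n, 0),
    qCoeff f p.1 * (z p.2 : ℂ), mul_mem (natCast_mem O D)
      (sum_mem fun p _ => mul_mem (hint _) (intCast_mem O _)), ?_⟩
  rw [hqe, ← Finset.add_sum_erase _ _
    (show (n, 0) ∈ Finset.HasAntidiagonal.antidiagonal n by simp), mul_add]
  congr 1
  · simp [hexExpand, hexCoeff_zero]
  · rw [← mul_assoc, mul_comm (3 : ℂ), mul_assoc, Finset.mul_sum (a := (3 : ℂ))]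
    congr 1
    refine Finset.sum_congr rfl fun p hp => ?_
    have hp2 : p.2 ≠ 0 := fun h0 => by
      obtain ⟨hne, hpn⟩ := Finset.mem_erase.1 hp
      rw [Finset.HasAntidiagonal.mem_antidiagonal, h0, add_zero] at hpn
      exact hne (Prod.ext hpn h0)
    rw [hz _ hp2]
    ring

end Fermat.Agent.ResidualThree.SquarefreeLevel
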